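import Fermat.Agent.Corollaries.EK.Compare

/-!
# The theorem of Erdős and Kac: the characteristic function
-/

set_option autoImplicit false

open Finset Filter Topology

noncomputable section

namespace Fermat.Agent.Cor.EK

open ArithmeticFunction (cardDistinctFactors)

theorem norm_exp_sub_exp_le (a b : ℝ) :
    ‖Complex.exp (a * Complex.I) - Complex.exp (b * Complex.I)‖ ≤ |a - b| := by
  have h1 : Complex.exp (a * Complex.I) - Complex.exp (b * Complex.I) =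
      Complex.exp (b * Complex.I) * (Complex.exp (Complex.I * ((a - b : ℝ) : ℂ)) - 1) := by
    rw [mul_sub, ← Complex.exp_add, mul_one]
    congr 2
    push_cast
    ring
  rw [h1, norm_mul, Complex.norm_exp_ofReal_mul_I, one_mul]
  exact Real.norm_exp_I_mul_ofReal_sub_one_le

theorem abs_exp_neg_sub_le {a b : ℝ} (ha : 0 ≤ a) (hb : 0 ≤ b) :
    |Real.exp (-a) - Real.exp (-b)| ≤ |a - b| := by
  wlog h : a ≤ b generalizing a b
  · rw [abs_sub_comm, abs_sub_comm a]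
    exact this hb ha (le_of_not_ge h)
  rw [abs_of_nonneg (by linarith [Real.exp_le_exp.mpr (neg_le_neg h)]),
    abs_of_nonpos (by linarith), neg_sub]
  have h1 : Real.exp (-b) = Real.exp (-a) * Real.exp (-(b - a)) := by
    rw [← Real.exp_add]
    congr 1
    ring
  have h2 := Real.add_one_le_exp (-(b - a))
  have h3 : Real.exp (-a) ≤ 1 := by
    rw [Real.exp_le_one_iff]
    linarith
  rw [h1]
  nlinarith [Real.exp_pos (-a), Real.exp_pos (-(b - a)),
    mul_nonneg (Real.exp_pos (-a)).le (sub_nonneg.mpr h)]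

/-- the error term -/
def RR (t A B u : ℝ) : ℝ := 2 * B * |t| * u⁻¹ + A * (|t| ^ 3 * (u⁻¹ ^ 2 + B * u⁻¹ ^ 5)) +
  A * t ^ 2 * u⁻¹ ^ 4 + t ^ 2 * B / 2 * u⁻¹ ^ 3

theorem tendsto_RR (t A B : ℝ) : Tendsto (RR t A B) atTop (𝓝 0) := by
  have h : Tendsto (fun u : ℝ => u⁻¹) atTop (𝓝 0) := tendsto_inv_atTop_zero
  have hc : Continuous fun v : ℝ => 2 * B * |t| * v + A * (|t| ^ 3 * (v ^ 2 + B * v ^ 5)) +
      A * t ^ 2 * v ^ 4 + t ^ 2 * B / 2 * v ^ 3 := by fun_prop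
  have h1 : Tendsto (RR t A B) atTop (𝓝 _) := (hc.tendsto 0).comp h
  have h2 : 2 * B * |t| * (0 : ℝ) + A * (|t| ^ 3 * (0 ^ 2 + B * 0 ^ 5)) +
      A * t ^ 2 * 0 ^ 4 + t ^ 2 * B / 2 * 0 ^ 3 = 0 := by ring
  rwa [h2] at h1

/-- (K6) -/
theorem charStmt_of (hPr : ProdStmt) (hM : MomStmt) (hTail : TailStmt) (hTay : TaylorStmt)
    (hNum : NumStmt) : CharStmt := by
  intro t
  obtain ⟨C₁, h1⟩ := hPr
  obtain ⟨C₂, h5⟩ := hNum
  set A : ℝ := |C₁| with hA
  set B : ℝ := |C₂| with hB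
  have hA0 : 0 ≤ A := abs_nonneg _
  have hB0 : 0 ≤ B := abs_nonneg _
  have hL : Tendsto (fun N : ℕ => Real.log (Real.log (N : ℝ))) atTop atTop :=
    Real.tendsto_log_atTop.comp (Real.tendsto_log_atTop.comp tendsto_natCast_atTop_atTop)
  have hu : Tendsto (fun N : ℕ => Real.log (Real.log (N : ℝ)) ^ (1 / 4 : ℝ)) atTop atTop :=
    (tendsto_rpow_atTop (by norm_num)).comp hL
  rw [Metric.tendsto_nhds]
  intro ε hε
  set G : ℝ := 4 * Real.exp (8 * (|t| + 1) ^ 2) with hG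
  have hG0 : 0 < G := by positivity
  obtain ⟨k, hk⟩ := exists_pow_lt_of_lt_one (show 0 < ε / 2 / G by positivity)
    (show (1 / 4 : ℝ) < 1 by norm_num)
  rw [lt_div_iff₀ hG0] at hk
  have hrest : Tendsto (fun N : ℕ => RR t A B (Real.log (Real.log (N : ℝ)) ^ (1 / 4 : ℝ)) +
      (2 * k + 1) / √(N : ℝ)) atTop (𝓝 0) := by
    have h2 : Tendsto (fun N : ℕ => (2 * (k : ℝ) + 1) / √(N : ℝ)) atTop (𝓝 0) :=
      (Real.tendsto_sqrt_atTop.comp tendsto_natCast_atTop_atTop).const_div_atTop _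
    simpa using ((tendsto_RR t A B).comp hu).add h2
  filter_upwards [h5 (2 * k), eventually_ge_atTop 1, hL.eventually_gt_atTop 0,
    hu.eventually_ge_atTop 1, hu.eventually_ge_atTop B, hu.eventually_ge_atTop (2 * (|t| + 1)),
    hrest.eventually_lt_const (show (0 : ℝ) < ε / 2 by positivity)]
    with N hP hN hLN hu1 huB hut hR
  obtain ⟨P, hP, hPN, hom, hmu⟩ := hP
  have hN0 : (0 : ℝ) < N := by exact_mod_cast hN
  set L : ℝ := Real.log (Real.log N) with hLdef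
  set u : ℝ := L ^ (1 / 4 : ℝ) with hudef
  have hu0 : 0 < u := by linarith
  have hu4 : u ^ 4 = L := by
    rw [hudef, ← Real.rpow_natCast, ← Real.rpow_mul hLN.le]
    norm_num
  have hsq : √L = u ^ 2 := by
    rw [← hu4, show u ^ 4 = (u ^ 2) ^ 2 by ring, Real.sqrt_sq (by positivity)]
  have hom' : ∀ n ∈ Icc 1 N, |((cardDistinctFactors n : ℕ) : ℝ) - cn P n| ≤ B * u := fun n hn =>
    (hom n hn).trans (mul_le_mul_of_nonneg_right (le_abs_self _) hu0.le)
  have hmu' : |mu P - u ^ 4| ≤ B * u := by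
    rw [hu4]
    exact hmu.trans (mul_le_mul_of_nonneg_right (le_abs_self _) hu0.le)
  have hmu0 := mu_nonneg P
  set τ : ℝ := t / u ^ 2 with hτ
  have hτabs : |τ| = |t| / u ^ 2 := by rw [hτ, abs_div, abs_of_pos (pow_pos hu0 2)]
  have huu : u ≤ u ^ 2 := by nlinarith
  have ht0 := abs_nonneg t
  set s : ℝ := 2 * (|t| + 1) / u ^ 2 with hs
  have hs0 : 0 < s := by positivity
  have hs1 : s ≤ 1 := by
    rw [hs, div_le_one (by positivity)]
    linarith
  have hτs : 2 * |τ| ≤ s := by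
    rw [hτabs, hs, ← mul_div_assoc]
    exact div_le_div_of_nonneg_right (by linarith) (by positivity)
  have hτ1 : |τ| ≤ 1 := by linarith
  -- the four estimates
  have e1 : ‖(∑ n ∈ Icc 1 N, Complex.exp (t * ((((cardDistinctFactors n : ℕ) : ℝ) - L) / √L : ℝ) *
      Complex.I)) / N - (∑ n ∈ Icc 1 N, Complex.exp (τ * ((cn P n : ℂ) - mu P) * Complex.I)) / N‖ ≤
      2 * B * |t| * u⁻¹ := by
    rw [← sub_div, ← Finset.sum_sub_distrib, norm_div, Complex.norm_natCast, div_le_iff₀ hN0]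
    have h2 : ∀ n ∈ Icc 1 N, ‖Complex.exp (t * ((((cardDistinctFactors n : ℕ) : ℝ) - L) / √L : ℝ) *
        Complex.I) - Complex.exp (τ * ((cn P n : ℂ) - mu P) * Complex.I)‖ ≤
        2 * B * |t| * u⁻¹ := by
      intro n hn
      have h3 := norm_exp_sub_exp_le (t * ((((cardDistinctFactors n : ℕ) : ℝ) - L) / √L))
        (τ * ((cn P n : ℝ) - mu P))
      push_cast at h3 ⊢
      refine h3.trans ?_
      have h4 : t * ((((cardDistinctFactors n : ℕ) : ℝ) - L) / √L) - τ * ((cn P n : ℝ) - mu P) =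
          t / u ^ 2 * ((((cardDistinctFactors n : ℕ) : ℝ) - cn P n) + (mu P - u ^ 4)) := by
        rw [hsq, hτ, hu4]
        ring
      rw [h4, abs_mul, abs_div, abs_of_pos (pow_pos hu0 2)]
      have h6 := (abs_add_le (((cardDistinctFactors n : ℕ) : ℝ) - cn P n) (mu P - u ^ 4)).trans
        (add_le_add (hom' n hn) hmu')
      calc |t| / u ^ 2 * |((cardDistinctFactors n : ℕ) : ℝ) - cn P n + (mu P - u ^ 4)|
          ≤ |t| / u ^ 2 * (B * u + B * u) := mul_le_mul_of_nonneg_left h6 (by positivity)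
        _ = 2 * B * |t| * u⁻¹ := by
          field_simp
          ring
    refine (norm_sum_le _ _).trans ((sum_le_card_nsmul _ _ _ h2).trans (le_of_eq ?_))
    rw [Nat.card_Icc, Nat.add_sub_cancel, nsmul_eq_mul, mul_comm]
  have e2 : ‖DD P N (fun m => Complex.exp (τ * (m - mu P) * Complex.I))‖ ≤
      (2 * k + 1) / √N + G * (1 / 4) ^ k := by
    refine (norm_DD_exp_le hM hTail hTay hP hN hPN hτ1 hs0 hs1 hτs).trans ?_
    have h2 : s ^ 2 * mu P ≤ 8 * (|t| + 1) ^ 2 := by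
      have h3 : mu P ≤ 2 * u ^ 4 := by
        have h4 : B * u ≤ u ^ 4 := by
          have h6 : B * u ≤ u * u := mul_le_mul_of_nonneg_right huB hu0.le
          have h7 : u * u ≤ u ^ 4 := by
            have : 1 ≤ u ^ 2 := by nlinarith
            nlinarith [mul_pos hu0 hu0]
          linarith
        linarith [(abs_le.mp hmu').2]
      calc s ^ 2 * mu P ≤ s ^ 2 * (2 * u ^ 4) := mul_le_mul_of_nonneg_left h3 (by positivity)
        _ = 8 * (|t| + 1) ^ 2 := by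
          rw [hs]
          field_simp
          ring
    have h3 : 4 * Real.exp (s ^ 2 * mu P) * (1 / 4) ^ k ≤ G * (1 / 4) ^ k := by
      refine mul_le_mul_of_nonneg_right ?_ (by positivity)
      rw [hG]
      exact mul_le_mul_of_nonneg_left (Real.exp_le_exp.mpr h2) (by norm_num)
    linarith
  have e3 : ‖EiC P (fun m => Complex.exp (τ * (m - mu P) * Complex.I)) -
      Complex.exp (-τ ^ 2 * mu P / 2)‖ ≤
      A * (|t| ^ 3 * (u⁻¹ ^ 2 + B * u⁻¹ ^ 5)) + A * t ^ 2 * u⁻¹ ^ 4 := by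
    refine (h1 P hP τ hτ1).trans ?_
    have h2 : |τ| ^ 3 * mu P ≤ |t| ^ 3 * (u⁻¹ ^ 2 + B * u⁻¹ ^ 5) := by
      have h3 : mu P ≤ u ^ 4 + B * u := by linarith [(abs_le.mp hmu').2]
      calc |τ| ^ 3 * mu P ≤ |τ| ^ 3 * (u ^ 4 + B * u) :=
            mul_le_mul_of_nonneg_left h3 (by positivity)
        _ = _ := by
          rw [hτabs]
          field_simp
    have h3 : τ ^ 2 = t ^ 2 * u⁻¹ ^ 4 := by
      rw [hτ]
      field_simp
    have h4 : 0 ≤ |τ| ^ 3 * mu P + τ ^ 2 := by positivity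
    calc C₁ * (|τ| ^ 3 * mu P + τ ^ 2) ≤ A * (|τ| ^ 3 * mu P + τ ^ 2) :=
          mul_le_mul_of_nonneg_right (le_abs_self _) h4
      _ ≤ A * (|t| ^ 3 * (u⁻¹ ^ 2 + B * u⁻¹ ^ 5) + t ^ 2 * u⁻¹ ^ 4) := by
          refine mul_le_mul_of_nonneg_left ?_ hA0
          rw [h3]
          linarith
      _ = _ := by ring
  have e4 : ‖Complex.exp (-τ ^ 2 * mu P / 2) - Complex.exp (-t ^ 2 / 2)‖ ≤
      t ^ 2 * B / 2 * u⁻¹ ^ 3 := by
    have h2 : Complex.exp (-τ ^ 2 * mu P / 2) - Complex.exp (-t ^ 2 / 2) =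
        ((Real.exp (-(τ ^ 2 * mu P / 2)) - Real.exp (-(t ^ 2 / 2)) : ℝ) : ℂ) := by
      push_cast
      congr 2 <;> ring
    rw [h2, Complex.norm_real, Real.norm_eq_abs]
    refine (abs_exp_neg_sub_le (by positivity) (by positivity)).trans ?_
    have h3 : τ ^ 2 * mu P / 2 - t ^ 2 / 2 = t ^ 2 / 2 * u⁻¹ ^ 4 * (mu P - u ^ 4) := by
      rw [hτ]
      field_simp
    rw [h3, abs_mul, abs_of_nonneg (by positivity : 0 ≤ t ^ 2 / 2 * u⁻¹ ^ 4)]
    calc t ^ 2 / 2 * u⁻¹ ^ 4 * |mu P - u ^ 4| ≤ t ^ 2 / 2 * u⁻¹ ^ 4 * (B * u) :=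
          mul_le_mul_of_nonneg_left hmu' (by positivity)
      _ = _ := by
        field_simp
  have e5 : (∑ n ∈ Icc 1 N, Complex.exp (t * ((((cardDistinctFactors n : ℕ) : ℝ) - L) / √L : ℝ) *
      Complex.I)) / N - Complex.exp (-t ^ 2 / 2) =
      ((∑ n ∈ Icc 1 N, Complex.exp (t * ((((cardDistinctFactors n : ℕ) : ℝ) - L) / √L : ℝ) *
      Complex.I)) / N - (∑ n ∈ Icc 1 N, Complex.exp (τ * ((cn P n : ℂ) - mu P) * Complex.I)) / N) +
      DD P N (fun m => Complex.exp (τ * (m - mu P) * Complex.I)) +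
      (EiC P (fun m => Complex.exp (τ * (m - mu P) * Complex.I)) -
        Complex.exp (-τ ^ 2 * mu P / 2)) +
      (Complex.exp (-τ ^ 2 * mu P / 2) - Complex.exp (-t ^ 2 / 2)) := by
    unfold DD
    ring
  rw [dist_eq_norm, e5]
  refine ((norm_add_le _ _).trans (add_le_add_left ((norm_add_le _ _).trans
    (add_le_add_left (norm_add_le _ _) _)) _)).trans_lt ?_
  have hR' : RR t A B u = 2 * B * |t| * u⁻¹ + A * (|t| ^ 3 * (u⁻¹ ^ 2 + B * u⁻¹ ^ 5)) +
    A * t ^ 2 * u⁻¹ ^ 4 + t ^ 2 * B / 2 * u⁻¹ ^ 3 := rfl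
  linarith

end Fermat.Agent.Cor.EK
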