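import Fermat.Agent.Corollaries.EK.Mom

/-!
# The theorem of Erdős and Kac: comparison of the characteristic functions
-/

set_option autoImplicit false

open Finset

noncomputable section

namespace Fermat.Agent.Cor.EK

theorem wt_nonneg {P : Finset ℕ} (hP : ∀ p ∈ P, p.Prime) {A : Finset ℕ} :
    0 ≤ wt P A := by
  unfold wt
  refine mul_nonneg (prod_nonneg fun p _ => by positivity) (prod_nonneg fun p hp => ?_)
  have h1 : (p : ℝ)⁻¹ ≤ 1 :=
    inv_le_one_of_one_le₀ (by exact_mod_cast (hP p (mem_sdiff.mp hp).1).one_lt.le)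
  linarith

/-- the difference of the two means -/
def DD (P : Finset ℕ) (N : ℕ) (F : ℕ → ℂ) : ℂ := (∑ n ∈ Icc 1 N, F (cn P n)) / N - EiC P F

theorem DD_add (P : Finset ℕ) (N : ℕ) (F G : ℕ → ℂ) :
    DD P N (fun m => F m + G m) = DD P N F + DD P N G := by
  unfold DD EiC
  simp only [mul_add, Finset.sum_add_distrib, add_div]
  ring

theorem DD_sum (P : Finset ℕ) (N : ℕ) {ι : Type*} (s : Finset ι) (c : ι → ℂ) (F : ι → ℕ → ℂ) :
    DD P N (fun m => ∑ i ∈ s, c i * F i m) = ∑ i ∈ s, c i * DD P N (F i) := by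
  unfold DD EiC
  have h1 : (∑ n ∈ Icc 1 N, ∑ i ∈ s, c i * F i (cn P n)) / (N : ℂ) =
      ∑ i ∈ s, c i * ((∑ n ∈ Icc 1 N, F i (cn P n)) / N) := by
    rw [Finset.sum_comm, Finset.sum_div]
    refine sum_congr rfl fun i _ => ?_
    rw [← Finset.mul_sum, mul_div_assoc]
  have h2 : ∑ A ∈ P.powerset, (wt P A : ℂ) * ∑ i ∈ s, c i * F i #A =
      ∑ i ∈ s, c i * ∑ A ∈ P.powerset, (wt P A : ℂ) * F i #A := by
    simp only [Finset.mul_sum]
    rw [Finset.sum_comm]
    refine sum_congr rfl fun i _ => sum_congr rfl fun A _ => by ring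
  rw [h1, h2, ← Finset.sum_sub_distrib]
  exact sum_congr rfl fun i _ => by ring

theorem norm_DD_le {P : Finset ℕ} (hP : ∀ p ∈ P, p.Prime) (N : ℕ) {F : ℕ → ℂ} {G : ℕ → ℝ}
    (h : ∀ m, ‖F m‖ ≤ G m) :
    ‖DD P N F‖ ≤ (∑ n ∈ Icc 1 N, G (cn P n)) / N + Ei P G := by
  unfold DD
  refine (norm_sub_le _ _).trans (add_le_add ?_ ?_)
  · rw [norm_div, Complex.norm_natCast]
    refine div_le_div_of_nonneg_right ?_ (Nat.cast_nonneg N)
    exact (norm_sum_le _ _).trans (sum_le_sum fun n _ => h _)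
  · unfold EiC Ei
    refine (norm_sum_le _ _).trans (sum_le_sum fun A _ => ?_)
    rw [norm_mul, Complex.norm_real, Real.norm_of_nonneg (wt_nonneg hP)]
    exact mul_le_mul_of_nonneg_left (h _) (wt_nonneg hP)

theorem DD_real (P : Finset ℕ) (N : ℕ) (G : ℕ → ℝ) :
    DD P N (fun m => (G m : ℂ)) = (((∑ n ∈ Icc 1 N, G (cn P n)) / N - Ei P G : ℝ) : ℂ) := by
  unfold DD EiC Ei
  push_cast
  rfl

theorem Ei_mul (P : Finset ℕ) (c : ℝ) (G : ℕ → ℝ) : Ei P (fun m => c * G m) = c * Ei P G := by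
  unfold Ei
  rw [Finset.mul_sum]
  exact sum_congr rfl fun A _ => by ring

/-- The characteristic function of `cn P n - mu P`, `n ≤ N`, and the one of the independent
model. -/
theorem norm_DD_exp_le (hM : MomStmt) (hTail : TailStmt) (hTay : TaylorStmt) {P : Finset ℕ}
    (hP : ∀ p ∈ P, p.Prime) {N : ℕ} (hN : 1 ≤ N) {k : ℕ} (hPN : (2 * #P : ℝ) ^ (2 * k) ≤ √N)
    {τ s : ℝ} (hτ : |τ| ≤ 1) (hs0 : 0 < s) (hs1 : s ≤ 1) (hτs : 2 * |τ| ≤ s) :
    ‖DD P N (fun m => Complex.exp (τ * (m - mu P) * Complex.I))‖ ≤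
      (2 * k + 1) / √N + 4 * Real.exp (s ^ 2 * mu P) * (1 / 4) ^ k := by
  have hN0 : (0 : ℝ) < N := by exact_mod_cast hN
  have hN1 : (1 : ℝ) ≤ √N := by
    rw [Real.one_le_sqrt]
    exact_mod_cast hN
  have hNN : √(N : ℝ) * √N = N := Real.mul_self_sqrt hN0.le
  have hsN : √(N : ℝ) / N = 1 / √N := by
    rw [div_eq_div_iff hN0.ne' (by positivity), one_mul]
    exact hNN
  -- powers of `2 * #P`
  have hpow : ∀ j ≤ 2 * k, (2 * #P : ℝ) ^ j ≤ √N := by
    intro j hj
    rcases Nat.eq_zero_or_pos #P with h0 | h0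
    · rw [h0, Nat.cast_zero, mul_zero]
      exact (pow_le_one₀ le_rfl zero_le_one).trans hN1
    · refine (pow_le_pow_right₀ ?_ hj).trans hPN
      have : (1 : ℝ) ≤ #P := by exact_mod_cast h0
      linarith
  have hmom : ∀ j ≤ 2 * k, |(∑ n ∈ Icc 1 N, ((cn P n : ℝ) - mu P) ^ j) / N -
      Ei P (fun m => ((m : ℝ) - mu P) ^ j)| ≤ 1 / √N := fun j hj =>
    (hM P hP N hN j).trans (by rw [← hsN]; exact div_le_div_of_nonneg_right (hpow j hj) hN0.le)
  set x : ℕ → ℝ := fun m => τ * (m - mu P) with hx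
  set q : ℕ → ℂ := fun m => ∑ j ∈ range (2 * k), ((x m : ℂ) * Complex.I) ^ j / j.factorial with hq
  have e1 : (fun m : ℕ => Complex.exp (τ * (m - mu P) * Complex.I)) =
      fun m => q m + (Complex.exp (x m * Complex.I) - q m) := by
    funext m
    rw [add_sub_cancel, hx]
    push_cast
    rfl
  rw [e1, DD_add]
  refine (norm_add_le _ _).trans ?_
  -- the polynomial part
  have h1 : ‖DD P N q‖ ≤ 2 * k / √N := by
    have e2 : q = fun m : ℕ => ∑ j ∈ range (2 * k), ((τ : ℂ) * Complex.I) ^ j / j.factorial *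
        ((((m : ℝ) - mu P) ^ j : ℝ) : ℂ) := by
      funext m
      simp only [hq, hx]
      refine sum_congr rfl fun j _ => ?_
      push_cast
      rw [mul_right_comm, mul_pow _ ((m : ℂ) - mu P)]
      ring
    rw [e2, DD_sum P N (range (2 * k)) (fun j => ((τ : ℂ) * Complex.I) ^ j / j.factorial)
      (fun j (m : ℕ) => ((((m : ℝ) - mu P) ^ j : ℝ) : ℂ))]
    have e3 : ∀ j ∈ range (2 * k), ‖((τ : ℂ) * Complex.I) ^ j / j.factorial *
        DD P N (fun m : ℕ => ((((m : ℝ) - mu P) ^ j : ℝ) : ℂ))‖ ≤ 1 / √N := by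
      intro j hj
      rw [DD_real P N (fun m : ℕ => ((m : ℝ) - mu P) ^ j), norm_mul, Complex.norm_real,
        Real.norm_eq_abs, norm_div, norm_pow, norm_mul, Complex.norm_I, mul_one,
        Complex.norm_real, Real.norm_eq_abs, Complex.norm_natCast]
      have h2 : |τ| ^ j / j.factorial ≤ 1 := by
        rw [div_le_one (by positivity)]
        exact (pow_le_one₀ (abs_nonneg _) hτ).trans
          (by exact_mod_cast Nat.one_le_iff_ne_zero.mpr j.factorial_ne_zero)
      calc _ ≤ 1 * (1 / √(N : ℝ)) := mul_le_mul h2 (hmom j (mem_range.mp hj).le) (abs_nonneg _)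
            zero_le_one
        _ = _ := one_mul _
    refine (norm_sum_le _ _).trans ((sum_le_card_nsmul _ _ _ e3).trans (le_of_eq ?_))
    rw [card_range, nsmul_eq_mul]
    push_cast
    ring
  -- the remainder
  have h2 : ‖DD P N (fun m => Complex.exp (x m * Complex.I) - q m)‖ ≤
      1 / √N + 4 * Real.exp (s ^ 2 * mu P) * (1 / 4) ^ k := by
    set c : ℝ := |τ| ^ (2 * k) / (2 * k).factorial with hc
    have hc0 : 0 ≤ c := by positivity
    have hc1 : c ≤ 1 := by
      rw [hc, div_le_one (by positivity)]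
      exact (pow_le_one₀ (abs_nonneg _) hτ).trans
        (by exact_mod_cast Nat.one_le_iff_ne_zero.mpr (2 * k).factorial_ne_zero)
    have h3 : ∀ m : ℕ, ‖Complex.exp (x m * Complex.I) - q m‖ ≤
        c * ((m : ℝ) - mu P) ^ (2 * k) := by
      intro m
      refine (hTay (x m) (2 * k)).trans (le_of_eq ?_)
      rw [hx, hc]
      simp only
      rw [abs_mul, mul_pow, (even_two_mul k).pow_abs ((m : ℝ) - mu P)]
      ring
    refine (norm_DD_le hP N h3).trans ?_
    rw [Ei_mul, ← Finset.mul_sum, mul_div_assoc]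
    have h4 := hmom (2 * k) le_rfl
    rw [abs_le] at h4
    have h5 := hTail P hP s hs0 hs1 k
    set E : ℝ := Ei P (fun m => ((m : ℝ) - mu P) ^ (2 * k)) with hE
    have h6 : c * E ≤ 2 * Real.exp (s ^ 2 * mu P) * (1 / 4) ^ k := by
      have hf : (0 : ℝ) < (2 * k).factorial := by positivity
      have hsk : 0 < s ^ (2 * k) := by positivity
      have h7 : E ≤ (2 * k).factorial * (2 * Real.exp (s ^ 2 * mu P)) / s ^ (2 * k) := by
        rw [le_div_iff₀ hsk]
        exact h5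
      have h8 : |τ| ^ (2 * k) ≤ (1 / 4) ^ k * s ^ (2 * k) := by
        have h9 : |τ| ≤ s / 2 := by linarith
        calc |τ| ^ (2 * k) ≤ (s / 2) ^ (2 * k) := pow_le_pow_left₀ (abs_nonneg _) h9 _
          _ = (1 / 4) ^ k * s ^ (2 * k) := by
            rw [div_pow, pow_mul 2 2 k, one_div, inv_pow]
            norm_num
            ring
      calc c * E ≤ c * ((2 * k).factorial * (2 * Real.exp (s ^ 2 * mu P)) / s ^ (2 * k)) :=
            mul_le_mul_of_nonneg_left h7 hc0
        _ = |τ| ^ (2 * k) / s ^ (2 * k) * (2 * Real.exp (s ^ 2 * mu P)) := by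
            rw [hc]
            field_simp
        _ ≤ (1 / 4) ^ k * (2 * Real.exp (s ^ 2 * mu P)) := by
            refine mul_le_mul_of_nonneg_right ?_ (by positivity)
            rw [div_le_iff₀ hsk]
            exact h8
        _ = _ := by ring
    have h10 : c * ((∑ n ∈ Icc 1 N, ((cn P n : ℝ) - mu P) ^ (2 * k)) / N) ≤
        c * E + 1 / √N := by
      have h11 : (∑ n ∈ Icc 1 N, ((cn P n : ℝ) - mu P) ^ (2 * k)) / N ≤ E + 1 / √N := by
        linarith [h4.2]
      refine (mul_le_mul_of_nonneg_left h11 hc0).trans ?_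
      rw [mul_add]
      have h12 : c * (1 / √(N : ℝ)) ≤ 1 * (1 / √N) :=
        mul_le_mul_of_nonneg_right hc1 (by positivity)
      linarith
    linarith
  have h13 : (2 * (k : ℝ) + 1) / √N = 2 * k / √N + 1 / √N := add_div _ _ _
  rw [h13]
  linarith

end Fermat.Agent.Cor.EK
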