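import Mathlib.NumberTheory.ArithmeticFunction.Misc
import Mathlib.Probability.Distributions.Gaussian.Real
import Mathlib.Analysis.SpecialFunctions.Exp

/-!
# The theorem of Erdős and Kac: statements of the pieces

`P` is a finite set of primes, `A ⊆ P` a random subset in the independent model: `p ∈ A` with
probability `1 / p`.
-/

set_option autoImplicit false

open Finset Filter Topology

noncomputable section

namespace Fermat.Agent.Cor.EK

/-- the weight of `A ⊆ P` in the independent model -/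
def wt (P A : Finset ℕ) : ℝ := (∏ p ∈ A, (p : ℝ)⁻¹) * ∏ p ∈ P \ A, (1 - (p : ℝ)⁻¹)

/-- the mean of a function in the independent model -/
def Ei (P : Finset ℕ) (F : ℕ → ℝ) : ℝ := ∑ A ∈ P.powerset, wt P A * F #A

/-- the mean of a complex function in the independent model -/
def EiC (P : Finset ℕ) (F : ℕ → ℂ) : ℂ := ∑ A ∈ P.powerset, (wt P A : ℂ) * F #A

/-- the number of elements of `P` which divide `n` -/
def cn (P : Finset ℕ) (n : ℕ) : ℕ := #{p ∈ P | p ∣ n}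

/-- the mean of `#A` -/
def mu (P : Finset ℕ) : ℝ := ∑ p ∈ P, (p : ℝ)⁻¹

/-- (K1) EK/Prod.lean: the characteristic function in the independent model -/
def ProdStmt : Prop := ∃ C : ℝ, ∀ P : Finset ℕ, (∀ p ∈ P, p.Prime) → ∀ τ : ℝ, |τ| ≤ 1 →
  ‖EiC P (fun m => Complex.exp (τ * (m - mu P) * Complex.I)) - Complex.exp (-τ ^ 2 * mu P / 2)‖ ≤
    C * (|τ| ^ 3 * mu P + τ ^ 2)

/-- (K2) EK/Mom.lean: the moments of `cn P n`, `n ≤ N`, and of the independent model -/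
def MomStmt : Prop := ∀ P : Finset ℕ, (∀ p ∈ P, p.Prime) → ∀ N : ℕ, 1 ≤ N → ∀ k : ℕ,
  |(∑ n ∈ Icc 1 N, ((cn P n : ℝ) - mu P) ^ k) / N - Ei P (fun m => ((m : ℝ) - mu P) ^ k)| ≤
    (2 * #P) ^ k / N

/-- (K3) EK/Tail.lean: even moments of the independent model -/
def TailStmt : Prop := ∀ P : Finset ℕ, (∀ p ∈ P, p.Prime) → ∀ s : ℝ, 0 < s → s ≤ 1 → ∀ k : ℕ,
  Ei P (fun m => ((m : ℝ) - mu P) ^ (2 * k)) * s ^ (2 * k) ≤
    (2 * k).factorial * (2 * Real.exp (s ^ 2 * mu P))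

/-- (K4) EK/Taylor.lean: Taylor's formula for `exp (i x)` -/
def TaylorStmt : Prop := ∀ (x : ℝ) (k : ℕ),
  ‖Complex.exp (x * Complex.I) - ∑ j ∈ range k, ((x : ℂ) * Complex.I) ^ j / j.factorial‖ ≤
    |x| ^ k / k.factorial

/-- (K5) EK/Num.lean: the truncation. `L = log log N`. -/
def NumStmt : Prop := ∃ C : ℝ, ∀ K : ℕ, ∀ᶠ N : ℕ in atTop, ∃ P : Finset ℕ, (∀ p ∈ P, p.Prime) ∧
  (2 * #P : ℝ) ^ K ≤ √N ∧
  (∀ n ∈ Icc 1 N, |((ArithmeticFunction.cardDistinctFactors n : ℕ) : ℝ) - cn P n| ≤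
    C * Real.log (Real.log N) ^ (1 / 4 : ℝ)) ∧
  |mu P - Real.log (Real.log N)| ≤ C * Real.log (Real.log N) ^ (1 / 4 : ℝ)

/-- (K6) EK/Char.lean: the characteristic function -/
def CharStmt : Prop := ∀ t : ℝ, Tendsto (fun N : ℕ => (∑ n ∈ Icc 1 N, Complex.exp (t *
  ((((ArithmeticFunction.cardDistinctFactors n : ℕ) : ℝ) - Real.log (Real.log N)) /
    √(Real.log (Real.log N)) : ℝ) * Complex.I)) / N) atTop (𝓝 (Complex.exp (-t ^ 2 / 2)))

/-- (K7) EK/Final.lean: **the theorem of Erdős and Kac** -/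
def EKStmt : Prop := ∀ a : ℝ, Tendsto (fun N : ℕ =>
  (#{n ∈ Icc 1 N | ((ArithmeticFunction.cardDistinctFactors n : ℕ) : ℝ) ≤
    Real.log (Real.log N) + a * √(Real.log (Real.log N))} : ℝ) / N) atTop
  (𝓝 ((√(2 * Real.pi))⁻¹ * ∫ x in Set.Iic a, Real.exp (-x ^ 2 / 2)))

end Fermat.Agent.Cor.EK
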