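import Fermat.Agent.Corollaries.EK.Final
import Mathlib.Analysis.SpecialFunctions.Gaussian.GaussianIntegral

/-!
# The theorem of Erdős and Kac with `log log n`

* `erdos_kac_self`, `erdos_kac_Omega_self`: the normalisation of `n` by `log log n` instead of
  `log log N`;
* `erdos_kac_interval`: the proportion of the `n` with
  `a < (ω(n) - log log n) / √(log log n) ≤ b`.
-/

set_option autoImplicit false

open Finset Filter Topology MeasureTheory

noncomputable section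

namespace Fermat.Agent.Cor.EK

open ArithmeticFunction (cardDistinctFactors cardFactors)

/-- the distribution function of the normal distribution -/
def Phi (a : ℝ) : ℝ := (√(2 * Real.pi))⁻¹ * ∫ x in Set.Iic a, Real.exp (-x ^ 2 / 2)

theorem abs_Phi_sub_le (a b : ℝ) : |Phi b - Phi a| ≤ |b - a| := by
  have hint : Integrable fun x : ℝ => Real.exp (-x ^ 2 / 2) := by
    have h := integrable_exp_neg_mul_sq (b := 1 / 2) (by norm_num)
    refine h.congr (Eventually.of_forall fun x => ?_)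
    change Real.exp (-(1 / 2) * x ^ 2) = Real.exp (-x ^ 2 / 2)
    congr 1
    ring
  unfold Phi
  rw [← mul_sub, intervalIntegral.integral_Iic_sub_Iic hint.integrableOn hint.integrableOn, abs_mul]
  have h1 : |∫ x in a..b, Real.exp (-x ^ 2 / 2)| ≤ 1 * |b - a| := by
    rw [← Real.norm_eq_abs]
    refine intervalIntegral.norm_integral_le_of_norm_le_const fun x _ => ?_
    rw [Real.norm_of_nonneg (Real.exp_pos _).le, Real.exp_le_one_iff]
    nlinarith [sq_nonneg x]
  have h2 : |(√(2 * Real.pi))⁻¹| ≤ 1 := by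
    rw [abs_of_nonneg (by positivity)]
    refine inv_le_one_of_one_le₀ ?_
    rw [Real.one_le_sqrt]
    linarith [Real.pi_gt_three]
  calc |(√(2 * Real.pi))⁻¹| * |∫ x in a..b, Real.exp (-x ^ 2 / 2)| ≤ 1 * (1 * |b - a|) :=
        mul_le_mul h2 h1 (abs_nonneg _) zero_le_one
    _ = |b - a| := by ring

/-- `log log` -/
def ll (x : ℝ) : ℝ := Real.log (Real.log x)

theorem ll_bounds {N n : ℕ} (hn : n ≤ N) (h : √(N : ℝ) < n) (hN : 3 ≤ ll N) :
    ll N - 1 ≤ ll n ∧ ll n ≤ ll N := by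
  have hlog : 0 < Real.log (N : ℝ) := by
    by_contra h0
    rcases Nat.eq_zero_or_pos N with rfl | hN0
    · unfold ll at hN
      simp at hN
      linarith
    · have h1 : (1 : ℝ) ≤ N := by exact_mod_cast hN0
      have h2 : Real.log (N : ℝ) = 0 := le_antisymm (not_lt.mp h0) (Real.log_nonneg h1)
      unfold ll at hN
      rw [h2, Real.log_zero] at hN
      linarith
  have hN0 : (0 : ℝ) < N := by
    rcases Nat.eq_zero_or_pos N with rfl | hN0
    · simp at hlog
    · exact_mod_cast hN0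
  have hs : 0 < √(N : ℝ) := Real.sqrt_pos.mpr hN0
  have h1 : Real.log (√(N : ℝ)) = Real.log N / 2 := Real.log_sqrt hN0.le
  have h2 : Real.log N / 2 < Real.log n := by
    rw [← h1]
    exact Real.log_lt_log hs h
  have h3 : Real.log (n : ℝ) ≤ Real.log N :=
    Real.log_le_log (hs.trans h) (by exact_mod_cast hn)
  unfold ll
  constructor
  · have h4 : Real.log (Real.log N / 2) ≤ Real.log (Real.log n) :=
      Real.log_le_log (by positivity) h2.le
    rw [Real.log_div hlog.ne' two_ne_zero] at h4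
    linarith [Real.log_two_lt_d9]
  · exact Real.log_le_log (by linarith) h3

/-- the thresholds for `log log n` and `log log N` -/
theorem abs_threshold_sub_le {x y : ℝ} (hx : 3 ≤ x) (h1 : x - 1 ≤ y) (h2 : y ≤ x) (a : ℝ) :
    |(y + a * √y) - (x + a * √x)| ≤ 1 + |a| := by
  have h3 : √y ≤ √x := Real.sqrt_le_sqrt h2
  have hy1 : 1 ≤ √y := by
    rw [Real.one_le_sqrt]
    linarith
  have h4 : √x - √y ≤ 1 := by
    have h5 : (√x - √y) * (√x + √y) = x - y := by
      have e1 := Real.mul_self_sqrt (show 0 ≤ x by linarith)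
      have e2 := Real.mul_self_sqrt (show 0 ≤ y by linarith)
      nlinarith
    nlinarith
  have h6 : (y + a * √y) - (x + a * √x) = (y - x) + a * (√y - √x) := by ring
  rw [h6]
  refine (abs_add_le _ _).trans (add_le_add ?_ ?_)
  · rw [abs_le]
    constructor <;> linarith
  · rw [abs_mul]
    calc |a| * |√y - √x| ≤ |a| * 1 := by
          refine mul_le_mul_of_nonneg_left ?_ (abs_nonneg _)
          rw [abs_le]
          constructor <;> linarith
      _ = |a| := mul_one _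

theorem card_sqrt_le (N : ℕ) : (#{n ∈ Icc 1 N | ((n : ℕ) : ℝ) ≤ √(N : ℝ)} : ℝ) ≤ √(N : ℝ) := by
  have h1 : {n ∈ Icc 1 N | ((n : ℕ) : ℝ) ≤ √(N : ℝ)} ⊆ Icc 1 ⌊√(N : ℝ)⌋₊ := by
    intro n hn
    rw [mem_filter, mem_Icc] at hn
    rw [mem_Icc]
    exact ⟨hn.1.1, Nat.le_floor hn.2⟩
  have h2 := card_le_card h1
  rw [Nat.card_Icc, Nat.add_sub_cancel] at h2
  calc (#{n ∈ Icc 1 N | ((n : ℕ) : ℝ) ≤ √(N : ℝ)} : ℝ) ≤ (⌊√(N : ℝ)⌋₊ : ℝ) := by exact_mod_cast h2
    _ ≤ √(N : ℝ) := Nat.floor_le (Real.sqrt_nonneg _)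

/-- `log log N` may be replaced by `log log n`. -/
theorem self_of {f : ℕ → ℝ} (h : ∀ a : ℝ, Tendsto (fun N : ℕ =>
    (#{n ∈ Icc 1 N | f n ≤ ll N + a * √(ll N)} : ℝ) / N) atTop (𝓝 (Phi a))) (a : ℝ) :
    Tendsto (fun N : ℕ => (#{n ∈ Icc 1 N | f n ≤ ll n + a * √(ll n)} : ℝ) / N) atTop
      (𝓝 (Phi a)) := by
  rw [Metric.tendsto_nhds]
  intro ε hε
  set δ : ℝ := ε / 4 with hδ
  have hδ0 : 0 < δ := by positivity
  have hL : Tendsto (fun N : ℕ => ll (N : ℝ)) atTop atTop := tendsto_log_log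
  have hsL : Tendsto (fun N : ℕ => √(ll (N : ℝ))) atTop atTop := Real.tendsto_sqrt_atTop.comp hL
  have hs : Tendsto (fun N : ℕ => (√(N : ℝ))⁻¹) atTop (𝓝 0) :=
    (Real.tendsto_sqrt_atTop.comp tendsto_natCast_atTop_atTop).inv_tendsto_atTop
  filter_upwards [(Metric.tendsto_nhds.mp (h (a - δ))) δ hδ0,
    (Metric.tendsto_nhds.mp (h (a + δ))) δ hδ0, hs.eventually_lt_const hδ0,
    hL.eventually_ge_atTop 3, hsL.eventually_ge_atTop ((1 + |a|) / δ), eventually_ge_atTop 1]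
    with N h1 h2 h3 h4 h5 hN
  have hN0 : (0 : ℝ) < N := by exact_mod_cast hN
  rw [Real.dist_eq, abs_lt] at h1 h2 ⊢
  rw [div_le_iff₀ hδ0] at h5
  have hkey : ∀ n ∈ Icc 1 N, √(N : ℝ) < n →
      |(ll n + a * √(ll n)) - (ll N + a * √(ll N))| ≤ δ * √(ll N) := by
    intro n hn hn'
    obtain ⟨b1, b2⟩ := ll_bounds (mem_Icc.mp hn).2 hn' h4
    exact (abs_threshold_sub_le h4 b1 b2 a).trans (by linarith)
  have hsub1 : {n ∈ Icc 1 N | f n ≤ ll n + a * √(ll n)} ⊆
      {n ∈ Icc 1 N | f n ≤ ll N + (a + δ) * √(ll N)} ∪ {n ∈ Icc 1 N | ((n : ℕ) : ℝ) ≤ √(N : ℝ)} := by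
    intro n hn
    rw [mem_filter] at hn
    rw [mem_union, mem_filter, mem_filter]
    by_cases hn' : (n : ℝ) ≤ √(N : ℝ)
    · exact Or.inr ⟨hn.1, hn'⟩
    · have h6 := (abs_le.mp (hkey n hn.1 (not_le.mp hn'))).2
      refine Or.inl ⟨hn.1, ?_⟩
      linarith [hn.2]
  have hsub2 : {n ∈ Icc 1 N | f n ≤ ll N + (a - δ) * √(ll N)} ⊆
      {n ∈ Icc 1 N | f n ≤ ll n + a * √(ll n)} ∪ {n ∈ Icc 1 N | ((n : ℕ) : ℝ) ≤ √(N : ℝ)} := by
    intro n hn
    rw [mem_filter] at hn
    rw [mem_union, mem_filter, mem_filter]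
    by_cases hn' : (n : ℝ) ≤ √(N : ℝ)
    · exact Or.inr ⟨hn.1, hn'⟩
    · have h6 := (abs_le.mp (hkey n hn.1 (not_le.mp hn'))).1
      refine Or.inl ⟨hn.1, ?_⟩
      linarith [hn.2]
  have hc1 : (#{n ∈ Icc 1 N | f n ≤ ll n + a * √(ll n)} : ℝ) ≤
      #{n ∈ Icc 1 N | f n ≤ ll N + (a + δ) * √(ll N)} + √(N : ℝ) := by
    have h6 := (card_le_card hsub1).trans (card_union_le _ _)
    have h7 : (#{n ∈ Icc 1 N | f n ≤ ll n + a * √(ll n)} : ℝ) ≤
        #{n ∈ Icc 1 N | f n ≤ ll N + (a + δ) * √(ll N)} +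
          #{n ∈ Icc 1 N | ((n : ℕ) : ℝ) ≤ √(N : ℝ)} := by exact_mod_cast h6
    linarith [card_sqrt_le N]
  have hc2 : (#{n ∈ Icc 1 N | f n ≤ ll N + (a - δ) * √(ll N)} : ℝ) ≤
      #{n ∈ Icc 1 N | f n ≤ ll n + a * √(ll n)} + √(N : ℝ) := by
    have h6 := (card_le_card hsub2).trans (card_union_le _ _)
    have h7 : (#{n ∈ Icc 1 N | f n ≤ ll N + (a - δ) * √(ll N)} : ℝ) ≤
        #{n ∈ Icc 1 N | f n ≤ ll n + a * √(ll n)} +
          #{n ∈ Icc 1 N | ((n : ℕ) : ℝ) ≤ √(N : ℝ)} := by exact_mod_cast h6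
    linarith [card_sqrt_le N]
  have hsN : √(N : ℝ) / N = (√(N : ℝ))⁻¹ := Real.sqrt_div_self
  have hd1 := div_le_div_of_nonneg_right hc1 hN0.le
  have hd2 := div_le_div_of_nonneg_right hc2 hN0.le
  rw [add_div, hsN] at hd1 hd2
  have hp1 := abs_le.mp (abs_Phi_sub_le a (a + δ))
  have hp2 := abs_le.mp (abs_Phi_sub_le a (a - δ))
  rw [add_sub_cancel_left, abs_of_pos hδ0] at hp1
  rw [show a - δ - a = -δ by ring, abs_neg, abs_of_pos hδ0] at hp2
  constructor <;> linarith [h1.1, h1.2, h2.1, h2.2, hp1.1, hp1.2, hp2.1, hp2.2]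

/-- **The theorem of Erdős and Kac**: for every real number `a` the proportion of the `n ≤ N` with
`(ω(n) - log log n) / √(log log n) ≤ a` tends to the value of the normal distribution function. -/
theorem erdos_kac_self (a : ℝ) : Tendsto (fun N : ℕ =>
    (#{n ∈ Icc 1 N | (cardDistinctFactors n : ℝ) ≤
      Real.log (Real.log n) + a * √(Real.log (Real.log n))} : ℝ) / N) atTop
    (𝓝 ((√(2 * Real.pi))⁻¹ * ∫ x in Set.Iic a, Real.exp (-x ^ 2 / 2))) :=
  self_of (f := fun n => (cardDistinctFactors n : ℝ)) erdos_kac a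

/-- The same for the number of prime factors counted with multiplicity. -/
theorem erdos_kac_Omega_self (a : ℝ) : Tendsto (fun N : ℕ =>
    (#{n ∈ Icc 1 N | (cardFactors n : ℝ) ≤
      Real.log (Real.log n) + a * √(Real.log (Real.log n))} : ℝ) / N) atTop
    (𝓝 ((√(2 * Real.pi))⁻¹ * ∫ x in Set.Iic a, Real.exp (-x ^ 2 / 2))) :=
  self_of (f := fun n => (cardFactors n : ℝ)) erdos_kac_Omega a

/-- **The theorem of Erdős and Kac** for an interval: the proportion of the `n ≤ N` with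
`a < (ω(n) - log log n) / √(log log n) ≤ b`. -/
theorem erdos_kac_interval {a b : ℝ} (hab : a ≤ b) : Tendsto (fun N : ℕ =>
    (#{n ∈ Icc 1 N | Real.log (Real.log ((n : ℕ) : ℝ)) + a * √(Real.log (Real.log n)) <
      (cardDistinctFactors n : ℝ) ∧ (cardDistinctFactors n : ℝ) ≤
      Real.log (Real.log n) + b * √(Real.log (Real.log n))} : ℝ) / N) atTop
    (𝓝 ((√(2 * Real.pi))⁻¹ * ∫ x in a..b, Real.exp (-x ^ 2 / 2))) := by
  have hint : Integrable fun x : ℝ => Real.exp (-x ^ 2 / 2) := by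
    have h := integrable_exp_neg_mul_sq (b := 1 / 2) (by norm_num)
    refine h.congr (Eventually.of_forall fun x => ?_)
    change Real.exp (-(1 / 2) * x ^ 2) = Real.exp (-x ^ 2 / 2)
    congr 1
    ring
  have h := (erdos_kac_self b).sub (erdos_kac_self a)
  rw [← mul_sub, intervalIntegral.integral_Iic_sub_Iic hint.integrableOn hint.integrableOn] at h
  refine h.congr fun N => ?_
  rw [← sub_div]
  congr 1
  have h1 : {n ∈ Icc 1 N | (cardDistinctFactors n : ℝ) ≤
      Real.log (Real.log n) + a * √(Real.log (Real.log n))} ⊆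
      {n ∈ Icc 1 N | (cardDistinctFactors n : ℝ) ≤
      Real.log (Real.log n) + b * √(Real.log (Real.log n))} := by
    intro n hn
    rw [mem_filter] at hn ⊢
    refine ⟨hn.1, hn.2.trans ?_⟩
    have := mul_le_mul_of_nonneg_right hab (Real.sqrt_nonneg (Real.log (Real.log (n : ℝ))))
    linarith
  have h2 : {n ∈ Icc 1 N | Real.log (Real.log ((n : ℕ) : ℝ)) + a * √(Real.log (Real.log n)) <
      (cardDistinctFactors n : ℝ) ∧ (cardDistinctFactors n : ℝ) ≤
      Real.log (Real.log n) + b * √(Real.log (Real.log n))} =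
      {n ∈ Icc 1 N | (cardDistinctFactors n : ℝ) ≤
      Real.log (Real.log n) + b * √(Real.log (Real.log n))} \
      {n ∈ Icc 1 N | (cardDistinctFactors n : ℝ) ≤
      Real.log (Real.log n) + a * √(Real.log (Real.log n))} := by
    ext n
    rw [Finset.mem_sdiff, mem_filter, mem_filter, mem_filter, not_and, not_le]
    tauto
  rw [h2, card_sdiff_of_subset h1, Nat.cast_sub (card_le_card h1)]

end Fermat.Agent.Cor.EK
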