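import Fermat.Agent.Corollaries.EK.Kub
import Fermat.Agent.Corollaries.EK.Self

/-!
# The theorem of Erdős and Kac for the number of divisors

`log d(n) / log 2` is normally distributed with mean and variance `log log N`.
-/

set_option autoImplicit false

open Finset Filter Topology

namespace Fermat.Agent.Cor.EK

/-- **The number of divisors** of `n ≤ N` is log-normally distributed: for every real number `a`
the proportion of the `n ≤ N` with at most `2 ^ (log log N + a √(log log N))` divisors tends to
the value of the normal distribution function at `a`. -/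
theorem erdos_kac_divisors (a : ℝ) : Tendsto (fun N : ℕ =>
    (#{n ∈ Icc 1 N | (#(Nat.divisors n) : ℝ) ≤
      (2 : ℝ) ^ (Real.log (Real.log N) + a * √(Real.log (Real.log N)))} : ℝ) / N) atTop
    (𝓝 ((√(2 * Real.pi))⁻¹ * ∫ x in Set.Iic a, Real.exp (-x ^ 2 / 2))) := by
  refine (card_divisors_of erdos_kac erdos_kac_Omega a).congr fun N => ?_
  congr 2
  refine congrArg Finset.card (Finset.filter_congr fun n hn => ?_)
  have hn0 : n ≠ 0 := by
    have := (mem_Icc.mp hn).1
    omega
  have hd : (0 : ℝ) < #(Nat.divisors n) := by
    exact_mod_cast card_pos.mpr (Nat.nonempty_divisors.mpr hn0)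
  rw [Real.rpow_def_of_pos two_pos, ← Real.log_le_iff_le_exp hd]

end Fermat.Agent.Cor.EK
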