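import Fermat.Agent.Corollaries.EK.Defs
import Fermat.Agent.Corollaries.HR.Turan

/-!
# The theorem of Erdős and Kac: the truncation

The primes `p ≤ N ^ (1 / h)`, `h = (log log N) ^ (1 / 4)`: a number `n ≤ N` has at most `h` larger
prime divisors, and the sum of their inverses is `log h + O(1)`.
-/

set_option autoImplicit false

open Finset Filter Topology

noncomputable section

namespace Fermat.Agent.Cor.EK

open Cor.HR

theorem tendsto_loglog : Tendsto (fun N : ℕ => Real.log (Real.log N)) atTop atTop :=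
  Real.tendsto_log_atTop.comp (Real.tendsto_log_atTop.comp tendsto_natCast_atTop_atTop)

/-- `h = (log log N) ^ (1 / 4)` -/
def hh (N : ℕ) : ℝ := Real.log (Real.log N) ^ (1 / 4 : ℝ)

/-- `log y = log N / h` -/
def ly (N : ℕ) : ℝ := Real.log N / hh N

theorem tendsto_hh : Tendsto hh atTop atTop :=
  (tendsto_rpow_atTop (by norm_num)).comp tendsto_loglog

theorem tendsto_ly : Tendsto ly atTop atTop := by
  refine ((tendsto_exp_div_rpow_atTop (1 / 4)).comp tendsto_loglog).congr' ?_
  filter_upwards [eventually_gt_atTop 1] with N hN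
  have hl : 0 < Real.log N := Real.log_pos (by exact_mod_cast hN)
  rw [Function.comp_apply, Real.exp_log hl]
  rfl

/-- a number `n ≤ N` has at most `h` prime divisors `p > y` -/
theorem card_large {N n : ℕ} (hn : n ∈ Icc 1 N) {l h : ℝ} (hl : 0 < l)
    (hlh : Real.log N ≤ h * l) :
    (#{p ∈ n.primeFactors | ⌊Real.exp l⌋₊ < p} : ℝ) ≤ h := by
  obtain ⟨h1, h2⟩ := mem_Icc.mp hn
  have h3 : ∑ p ∈ n.primeFactors with ⌊Real.exp l⌋₊ < p, Real.log p ≤ Real.log N := by
    have h4 : ∏ p ∈ n.primeFactors with ⌊Real.exp l⌋₊ < p, p ≤ N := by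
      refine (Nat.le_of_dvd (by omega) ?_).trans h2
      exact (prod_dvd_prod_of_subset _ _ _ (filter_subset _ _)).trans
        (Nat.prod_primeFactors_dvd n)
    rw [← Real.log_prod (fun p hp => by
      have := (Nat.prime_of_mem_primeFactors (mem_filter.mp hp).1).pos
      positivity)]
    refine Real.log_le_log ?_ ?_
    · exact prod_pos fun p hp => by
        have := (Nat.prime_of_mem_primeFactors (mem_filter.mp hp).1).pos
        positivity
    · rw [← Nat.cast_prod]
      exact Nat.cast_le.mpr h4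
  have h5 : (#{p ∈ n.primeFactors | ⌊Real.exp l⌋₊ < p} : ℝ) * l ≤
      ∑ p ∈ n.primeFactors with ⌊Real.exp l⌋₊ < p, Real.log p := by
    rw [← nsmul_eq_mul]
    refine card_nsmul_le_sum _ _ _ fun p hp => ?_
    have h6 := Nat.lt_of_floor_lt (mem_filter.mp hp).2
    rw [← Real.log_exp l]
    exact Real.log_le_log (Real.exp_pos l) h6.le
  exact le_of_mul_le_mul_right ((h5.trans h3).trans hlh) hl

theorem om_sub_cn {N n : ℕ} (hn : n ∈ Icc 1 N) (M : ℕ) :
    ((ArithmeticFunction.cardDistinctFactors n : ℕ) : ℝ) - cn (PN M) n =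
      (#{p ∈ n.primeFactors | M < p} : ℝ) := by
  have h1 := (mem_Icc.mp hn).1
  have h2 : {p ∈ PN M | p ∣ n} = {p ∈ n.primeFactors | ¬ M < p} := by
    ext p
    rw [mem_filter, mem_filter, mem_PN, Nat.mem_primeFactors, not_lt]
    constructor
    · rintro ⟨⟨h3, h4⟩, h5⟩
      exact ⟨⟨h3, h5, by omega⟩, h4⟩
    · rintro ⟨⟨h3, h5, _⟩, h4⟩
      exact ⟨⟨h3, h4⟩, h5⟩
  rw [om_eq_card, cn, h2, sub_eq_iff_eq_add, ← Nat.cast_add,
    card_filter_add_card_filter_not]

theorem mu_PN (x : ℝ) : mu (PN ⌊x⌋₊) = ∑ p ∈ (Icc 1 ⌊x⌋₊).filter Nat.Prime, (p : ℝ)⁻¹ := rfl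

theorem numStmt : NumStmt := by
  have h1 : ∀ᶠ x : ℝ in atTop, |mu (PN ⌊x⌋₊) - Real.log (Real.log x)| ≤
      |Mert.meisselMertens| + 1 := by
    have h2 := (Mert.tendsto_sum_inv.abs).eventually_le_const
      (show |Mert.meisselMertens| < |Mert.meisselMertens| + 1 by linarith)
    exact h2
  refine ⟨|Mert.meisselMertens| + 2, fun K => ?_⟩
  have hK0 : (0 : ℝ) ≤ K := Nat.cast_nonneg K
  have hM0 := abs_nonneg Mert.meisselMertens
  filter_upwards [(Real.tendsto_exp_atTop.comp tendsto_ly).eventually h1,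
    tendsto_hh.eventually_ge_atTop (4 * K + 1), tendsto_ly.eventually_gt_atTop 0,
    (Real.tendsto_log_atTop.comp tendsto_natCast_atTop_atTop).eventually_ge_atTop
      (4 * K * Real.log 2 + 1), tendsto_loglog.eventually_ge_atTop 1,
    eventually_gt_atTop 0] with N hN1 hN2 hN3 hN4 hN5 hN6
  rw [Function.comp_apply] at hN1 hN4
  have hh1 : 1 ≤ hh N := by linarith
  have hh0 : 0 < hh N := by linarith
  have hN0 : (0 : ℝ) < N := by exact_mod_cast hN6
  have hlog2 : 0 < Real.log 2 := Real.log_pos (by norm_num)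
  have hlN : 0 < Real.log N := by nlinarith
  have hly : hh N * ly N = Real.log N := mul_div_cancel₀ _ hh0.ne'
  refine ⟨PN ⌊Real.exp (ly N)⌋₊, fun p hp => (mem_PN.mp hp).1, ?_, fun n hn => ?_, ?_⟩
  · have h2 : (2 * #(PN ⌊Real.exp (ly N)⌋₊) : ℝ) ≤ Real.exp (Real.log 2 + ly N) := by
      rw [Real.exp_add, Real.exp_log (by norm_num)]
      have h3 := (card_PN_le ⌊Real.exp (ly N)⌋₊).trans
        (Nat.floor_le (Real.exp_pos (ly N)).le)
      linarith
    refine (pow_le_pow_left₀ (by positivity) h2 K).trans ?_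
    rw [← Real.exp_nat_mul, Real.sqrt_eq_rpow, Real.rpow_def_of_pos hN0]
    refine Real.exp_le_exp.mpr ?_
    have h3 : 4 * (K * ly N) ≤ Real.log N := by
      rw [← hly]
      nlinarith
    nlinarith
  · rw [om_sub_cn hn, abs_of_nonneg (by positivity)]
    refine (card_large hn hN3 hly.ge).trans ?_
    change hh N ≤ (|Mert.meisselMertens| + 2) * hh N
    nlinarith
  · change |mu (PN ⌊Real.exp (ly N)⌋₊) - Real.log (Real.log N)| ≤
      (|Mert.meisselMertens| + 2) * hh N
    rw [Real.log_exp] at hN1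
    have h2 : Real.log (ly N) = Real.log (Real.log N) - Real.log (hh N) :=
      Real.log_div hlN.ne' hh0.ne'
    have h3 : 0 ≤ Real.log (hh N) := Real.log_nonneg hh1
    have h4 : Real.log (hh N) ≤ hh N := (Real.log_le_sub_one_of_pos hh0).trans (by linarith)
    rw [h2] at hN1
    have h5 : mu (PN ⌊Real.exp (ly N)⌋₊) - Real.log (Real.log N) =
      (mu (PN ⌊Real.exp (ly N)⌋₊) - (Real.log (Real.log N) - Real.log (hh N))) -
        Real.log (hh N) := by ring
    rw [h5]
    refine (abs_sub _ _).trans ?_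
    rw [abs_of_nonneg h3]
    nlinarith

end Fermat.Agent.Cor.EK
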