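import Fermat.Agent.Corollaries.EK.Defs
import Fermat.Agent.Corollaries.HR.Turan

/-!
# The theorem of Erdős and Kac for `Ω`

The characteristic function for the number of the prime divisors counted with multiplicities, from
the one for `ω` and `∑_{n ≤ N} (Ω(n) - ω(n)) ≤ 2 N`.
-/

set_option autoImplicit false

open Finset Filter Topology

namespace Fermat.Agent.Cor.EK

namespace Omega

theorem norm_exp_sub_le (a b : ℝ) :
    ‖Complex.exp (a * Complex.I) - Complex.exp (b * Complex.I)‖ ≤ |a - b| := by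
  have h1 : Complex.exp (a * Complex.I) - Complex.exp (b * Complex.I) =
      Complex.exp (b * Complex.I) * (Complex.exp (Complex.I * (a - b : ℝ)) - 1) := by
    rw [mul_sub, mul_one, ← Complex.exp_add]
    congr 2
    push_cast
    ring
  rw [h1, norm_mul, Complex.norm_exp_ofReal_mul_I, one_mul, ← Real.norm_eq_abs]
  exact Real.norm_exp_I_mul_ofReal_sub_one_le

/-- the value of the character `t` at the normalised number of prime divisors -/
noncomputable def ch (t : ℝ) (N : ℕ) (x : ℝ) : ℂ :=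
  Complex.exp (t * ((x - Real.log (Real.log N)) / √(Real.log (Real.log N)) : ℝ) * Complex.I)

theorem norm_ch_sub_le (t : ℝ) (N : ℕ) (x y : ℝ) :
    ‖ch t N x - ch t N y‖ ≤ |t| * (|x - y| / √(Real.log (Real.log N))) := by
  have h1 : ∀ z : ℝ, ch t N z =
      Complex.exp (((t * ((z - Real.log (Real.log N)) / √(Real.log (Real.log N))) : ℝ) : ℂ) *
        Complex.I) := fun z => by
    rw [ch]
    push_cast
    rfl
  rw [h1, h1]
  refine (norm_exp_sub_le _ _).trans (le_of_eq ?_)
  rw [← mul_sub, ← sub_div, sub_sub_sub_cancel_right, abs_mul, abs_div,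
    abs_of_nonneg (Real.sqrt_nonneg _)]

end Omega

/-- the characteristic function for `Ω` -/
def CharOmegaStmt : Prop := ∀ t : ℝ, Tendsto (fun N : ℕ => (∑ n ∈ Icc 1 N, Complex.exp (t *
  ((((ArithmeticFunction.cardFactors n : ℕ) : ℝ) - Real.log (Real.log N)) /
    √(Real.log (Real.log N)) : ℝ) * Complex.I)) / N) atTop (𝓝 (Complex.exp (-t ^ 2 / 2)))

/-- **(K8)** -/
theorem charOmega (h : CharStmt) : CharOmegaStmt := by
  intro t
  have h1 := h t
  have h2 : Tendsto (fun N : ℕ => (∑ n ∈ Icc 1 N, (Omega.ch t N (HR.Om n) - Omega.ch t N (HR.om n))) /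
      (N : ℂ)) atTop (𝓝 0) := by
    have h3 : Tendsto (fun N : ℕ => |t| * (2 * (√(HR.LL N))⁻¹)) atTop (𝓝 0) := by
      have h4 : Tendsto (fun N : ℕ => (√(HR.LL N))⁻¹) atTop (𝓝 0) :=
        (Real.tendsto_sqrt_atTop.comp HR.tendsto_LL).inv_tendsto_atTop
      have h5 := (h4.const_mul 2).const_mul |t|
      rwa [mul_zero, mul_zero] at h5
    refine squeeze_zero_norm' ?_ h3
    filter_upwards [eventually_gt_atTop 0] with N hN
    have hN0 : (0 : ℝ) < N := by exact_mod_cast hN
    have hs : 0 ≤ (√(HR.LL N))⁻¹ := by positivity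
    rw [norm_div, Complex.norm_natCast, div_le_iff₀ hN0]
    calc ‖∑ n ∈ Icc 1 N, (Omega.ch t N (HR.Om n) - Omega.ch t N (HR.om n))‖
        ≤ ∑ n ∈ Icc 1 N, |t| * ((HR.Om n - HR.om n) * (√(HR.LL N))⁻¹) := by
          refine (norm_sum_le _ _).trans (Finset.sum_le_sum fun n _ => ?_)
          refine (Omega.norm_ch_sub_le t N _ _).trans (le_of_eq ?_)
          rw [abs_of_nonneg (sub_nonneg.mpr (HR.om_le_Om n)), div_eq_mul_inv]
          rfl
      _ = |t| * ((∑ n ∈ Icc 1 N, (HR.Om n - HR.om n)) * (√(HR.LL N))⁻¹) := by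
          rw [← Finset.mul_sum, ← Finset.sum_mul]
      _ ≤ |t| * (2 * N * (√(HR.LL N))⁻¹) := by
          gcongr
          exact HR.sum_Om_sub_om_le N
      _ = |t| * (2 * (√(HR.LL N))⁻¹) * N := by ring
  have h3 := h1.add h2
  rw [add_zero] at h3
  refine h3.congr fun N => ?_
  rw [← add_div, ← Finset.sum_add_distrib]
  congr 1
  refine Finset.sum_congr rfl fun n _ => ?_
  change Omega.ch t N (HR.om n) + (Omega.ch t N (HR.Om n) - Omega.ch t N (HR.om n)) =
    Omega.ch t N (HR.Om n)
  ring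

end Fermat.Agent.Cor.EK
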