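import Fermat.Agent.Corollaries.EK.Taylor
import Mathlib.Analysis.PSeries

/-!
# The theorem of Erdős and Kac: the characteristic function of the independent model
-/

set_option autoImplicit false

open Finset Filter Topology

noncomputable section

namespace Fermat.Agent.Cor.EK

theorem norm_prod_sub_prod_le {ι : Type*} (s : Finset ι) {a b : ι → ℂ}
    (ha : ∀ i ∈ s, ‖a i‖ ≤ 1) (hb : ∀ i ∈ s, ‖b i‖ ≤ 1) :
    ‖∏ i ∈ s, a i - ∏ i ∈ s, b i‖ ≤ ∑ i ∈ s, ‖a i - b i‖ := by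
  classical
  induction s using Finset.induction_on with
  | empty => simp
  | insert i s hi ih =>
    rw [prod_insert hi, prod_insert hi, sum_insert hi]
    have h1 : a i * ∏ j ∈ s, a j - b i * ∏ j ∈ s, b j =
        (a i - b i) * ∏ j ∈ s, a j + b i * (∏ j ∈ s, a j - ∏ j ∈ s, b j) := by ring
    have h2 : ‖∏ j ∈ s, a j‖ ≤ 1 := by
      rw [norm_prod]
      exact prod_le_one (fun j _ => norm_nonneg _) fun j hj => ha j (mem_insert_of_mem hj)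
    have h3 := ih (fun j hj => ha j (mem_insert_of_mem hj)) fun j hj => hb j (mem_insert_of_mem hj)
    rw [h1]
    refine (norm_add_le _ _).trans ?_
    rw [norm_mul, norm_mul]
    have h4 := hb i (mem_insert_self i s)
    refine add_le_add ?_ ?_
    · exact (mul_le_mul_of_nonneg_left h2 (norm_nonneg _)).trans (mul_one _).le
    · exact (mul_le_mul h4 h3 (norm_nonneg _) zero_le_one).trans (one_mul _).le

theorem EiC_exp (P : Finset ℕ) (τ : ℝ) :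
    EiC P (fun m => Complex.exp (τ * (m - mu P) * Complex.I)) =
      ∏ p ∈ P, (Complex.exp (-(τ * Complex.I) * (p : ℂ)⁻¹) *
        (1 + (Complex.exp (τ * Complex.I) - 1) * (p : ℂ)⁻¹)) := by
  have h1 : ∀ p ∈ P, 1 + (Complex.exp (τ * Complex.I) - 1) * (p : ℂ)⁻¹ =
      Complex.exp (τ * Complex.I) * (p : ℂ)⁻¹ + (1 - (p : ℂ)⁻¹) := fun p _ => by ring
  have h3 : ∏ p ∈ P, Complex.exp (-(τ * Complex.I) * (p : ℂ)⁻¹) =
      Complex.exp (-(τ * mu P * Complex.I)) := by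
    rw [← Complex.exp_sum, ← mul_sum, mu]
    push_cast
    ring_nf
  rw [prod_mul_distrib, h3, prod_congr rfl h1, prod_add, mul_sum]
  refine sum_congr rfl fun A _ => ?_
  have h2 : Complex.exp (τ * ((#A : ℂ) - mu P) * Complex.I) =
      Complex.exp (-(τ * mu P * Complex.I)) * Complex.exp (#A * (τ * Complex.I)) := by
    rw [← Complex.exp_add]
    ring_nf
  change (wt P A : ℂ) * Complex.exp (τ * ((#A : ℂ) - mu P) * Complex.I) = _
  rw [prod_mul_distrib, prod_const, ← Complex.exp_nat_mul, h2, wt]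
  push_cast
  ring

theorem exp_mu (P : Finset ℕ) (τ : ℝ) : Complex.exp (-τ ^ 2 * mu P / 2) =
    ∏ p ∈ P, Complex.exp (-(τ : ℂ) ^ 2 / 2 * (p : ℂ)⁻¹) := by
  rw [← Complex.exp_sum, ← mul_sum, mu]
  push_cast
  ring_nf

theorem norm_exp_I (x : ℝ) : ‖Complex.exp (x * Complex.I)‖ = 1 :=
  Complex.norm_exp_ofReal_mul_I x

/-- one factor -/
theorem norm_factor {p : ℕ} (hp : 2 ≤ p) {τ : ℝ} (hτ : |τ| ≤ 1) :
    ‖Complex.exp (-(τ * Complex.I) * (p : ℂ)⁻¹) *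
        (1 + (Complex.exp (τ * Complex.I) - 1) * (p : ℂ)⁻¹) -
      Complex.exp (-(τ : ℂ) ^ 2 / 2 * (p : ℂ)⁻¹)‖ ≤
      |τ| ^ 3 * (p : ℝ)⁻¹ + 3 * τ ^ 2 * ((p : ℝ) ^ 2)⁻¹ := by
  have hp0 : (0 : ℝ) < (p : ℝ)⁻¹ := by positivity
  have hp2 : (p : ℝ)⁻¹ ≤ 1 / 2 := by
    rw [one_div]
    exact inv_anti₀ (by norm_num) (by exact_mod_cast hp)
  have ht0 := abs_nonneg τ
  set w : ℂ := (τ * Complex.I - (τ : ℂ) ^ 2 / 2) * (p : ℂ)⁻¹ with hw
  have hn : ‖Complex.exp (-(τ * Complex.I) * (p : ℂ)⁻¹)‖ = 1 := by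
    have h1 : -(τ * Complex.I) * (p : ℂ)⁻¹ = ((-(τ * (p : ℝ)⁻¹) : ℝ) : ℂ) * Complex.I := by
      push_cast
      ring
    rw [h1, norm_exp_I]
  have h2 : Complex.exp (-(τ : ℂ) ^ 2 / 2 * (p : ℂ)⁻¹) =
      Complex.exp (-(τ * Complex.I) * (p : ℂ)⁻¹) * Complex.exp w := by
    rw [← Complex.exp_add, hw]
    ring_nf
  rw [h2, ← mul_sub, norm_mul, hn, one_mul]
  have h3 : 1 + (Complex.exp (τ * Complex.I) - 1) * (p : ℂ)⁻¹ - Complex.exp w =
      (Complex.exp (τ * Complex.I) - ∑ j ∈ range 3, ((τ : ℂ) * Complex.I) ^ j / j.factorial) *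
        (p : ℂ)⁻¹ - (Complex.exp w - 1 - w) := by
    rw [hw]
    simp only [sum_range_succ, range_zero, sum_empty, Nat.factorial, mul_pow, Complex.I_sq]
    push_cast
    ring
  have h4 : ‖w‖ ≤ 3 / 2 * |τ| * (p : ℝ)⁻¹ := by
    rw [hw, norm_mul, norm_inv, Complex.norm_natCast]
    refine mul_le_mul_of_nonneg_right ?_ hp0.le
    refine (norm_sub_le _ _).trans ?_
    rw [norm_mul, Complex.norm_I, Complex.norm_real, norm_div, norm_pow, Complex.norm_real,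
      Real.norm_eq_abs, mul_one]
    norm_num
    have h9 : τ ^ 2 ≤ |τ| := by
      rw [← sq_abs]
      nlinarith
    linarith
  have h5 : ‖w‖ ≤ 1 := by
    refine h4.trans ?_
    nlinarith [mul_le_mul hτ hp2 hp0.le zero_le_one]
  have h6 := Complex.norm_exp_sub_one_sub_id_le h5
  have h7 := taylorStmt τ 3
  rw [h3]
  refine (norm_sub_le _ _).trans (add_le_add ?_ ?_)
  · rw [norm_mul, norm_inv, Complex.norm_natCast]
    refine mul_le_mul_of_nonneg_right (h7.trans ?_) hp0.le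
    refine div_le_self (by positivity) ?_
    exact_mod_cast Nat.factorial_pos 3
  · refine h6.trans ?_
    have h8 : ‖w‖ ^ 2 ≤ (3 / 2 * |τ| * (p : ℝ)⁻¹) ^ 2 := by
      exact pow_le_pow_left₀ (norm_nonneg _) h4 2
    refine h8.trans ?_
    rw [mul_pow, mul_pow, sq_abs, inv_pow]
    have h9 : (0 : ℝ) ≤ τ ^ 2 * ((p : ℝ) ^ 2)⁻¹ := by positivity
    nlinarith

theorem norm_factor_le_one {p : ℕ} (hp : 2 ≤ p) (τ : ℝ) :
    ‖Complex.exp (-(τ * Complex.I) * (p : ℂ)⁻¹) *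
        (1 + (Complex.exp (τ * Complex.I) - 1) * (p : ℂ)⁻¹)‖ ≤ 1 := by
  have hn : ‖Complex.exp (-(τ * Complex.I) * (p : ℂ)⁻¹)‖ = 1 := by
    have h1 : -(τ * Complex.I) * (p : ℂ)⁻¹ = ((-(τ * (p : ℝ)⁻¹) : ℝ) : ℂ) * Complex.I := by
      push_cast
      ring
    rw [h1, norm_exp_I]
  have hp0 : (0 : ℝ) < (p : ℝ)⁻¹ := by positivity
  have hp1 : (p : ℝ)⁻¹ ≤ 1 := inv_le_one_of_one_le₀ (by exact_mod_cast (by omega : 1 ≤ p))
  rw [norm_mul, hn, one_mul]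
  have h1 : 1 + (Complex.exp (τ * Complex.I) - 1) * (p : ℂ)⁻¹ =
      ((1 - (p : ℝ)⁻¹ : ℝ) : ℂ) + Complex.exp (τ * Complex.I) * (p : ℂ)⁻¹ := by
    push_cast
    ring
  rw [h1]
  refine (norm_add_le _ _).trans ?_
  rw [norm_mul, norm_exp_I, norm_inv, Complex.norm_natCast, Complex.norm_real, Real.norm_eq_abs,
    abs_of_nonneg (by linarith)]
  linarith

theorem norm_gauss_le_one (p : ℕ) (τ : ℝ) :
    ‖Complex.exp (-(τ : ℂ) ^ 2 / 2 * (p : ℂ)⁻¹)‖ ≤ 1 := by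
  have h1 : -(τ : ℂ) ^ 2 / 2 * (p : ℂ)⁻¹ = ((-(τ ^ 2 / 2 * (p : ℝ)⁻¹) : ℝ) : ℂ) := by
    push_cast
    ring
  rw [h1, Complex.norm_exp, Complex.ofReal_re]
  refine Real.exp_le_one_iff.mpr ?_
  have : (0 : ℝ) ≤ τ ^ 2 / 2 * (p : ℝ)⁻¹ := by positivity
  linarith

theorem prodStmt : ProdStmt := by
  have hs : Summable fun n : ℕ => ((n : ℝ) ^ 2)⁻¹ := Real.summable_nat_pow_inv.mpr (by norm_num)
  set Z : ℝ := ∑' n : ℕ, ((n : ℝ) ^ 2)⁻¹ with hZ
  have hZ0 : 0 ≤ Z := tsum_nonneg fun n => by positivity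
  refine ⟨1 + 3 * Z, fun P hP τ hτ => ?_⟩
  rw [EiC_exp, exp_mu]
  refine (norm_prod_sub_prod_le P (fun p hp => norm_factor_le_one (hP p hp).two_le τ)
    fun p _ => norm_gauss_le_one p τ).trans ?_
  refine (sum_le_sum fun p hp => norm_factor (hP p hp).two_le hτ).trans ?_
  rw [sum_add_distrib, ← mul_sum, ← mul_sum]
  have h1 : ∑ p ∈ P, ((p : ℝ) ^ 2)⁻¹ ≤ Z := hs.sum_le_tsum P fun n _ => by positivity
  have h0 : 0 ≤ mu P := sum_nonneg fun p _ => by positivity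
  change |τ| ^ 3 * mu P + 3 * τ ^ 2 * _ ≤ _
  have h2 : 0 ≤ |τ| ^ 3 * mu P := by positivity
  have h3 : 0 ≤ τ ^ 2 := by positivity
  have h4 : 3 * τ ^ 2 * ∑ p ∈ P, ((p : ℝ) ^ 2)⁻¹ ≤ 3 * τ ^ 2 * Z :=
    mul_le_mul_of_nonneg_left h1 (by positivity)
  nlinarith [mul_nonneg hZ0 h2]

end Fermat.Agent.Cor.EK
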