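import Fermat.Agent.Corollaries.EK.Defs

/-!
# The theorem of Erdős and Kac: the moments of the independent model
-/

set_option autoImplicit false

open Finset Filter Topology

noncomputable section

namespace Fermat.Agent.Cor.EK

theorem wt_nonneg_of_prime {P : Finset ℕ} (hP : ∀ p ∈ P, p.Prime) {A : Finset ℕ} :
    0 ≤ wt P A := by
  refine mul_nonneg (prod_nonneg fun p _ => by positivity) (prod_nonneg fun p hp => ?_)
  have h1 : (1 : ℝ) ≤ p := by exact_mod_cast (hP p (mem_sdiff.mp hp).1).one_le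
  exact sub_nonneg.mpr (inv_le_one_of_one_le₀ h1)

theorem Ei_mono {P : Finset ℕ} (hP : ∀ p ∈ P, p.Prime) {F G : ℕ → ℝ} (h : ∀ m, F m ≤ G m) :
    Ei P F ≤ Ei P G :=
  sum_le_sum fun _ _ => mul_le_mul_of_nonneg_left (h _) (wt_nonneg_of_prime hP)

theorem Ei_mul_const (P : Finset ℕ) (F : ℕ → ℝ) (c : ℝ) :
    Ei P (fun m => F m * c) = Ei P F * c := by
  simp only [Ei, sum_mul, mul_assoc]

theorem Ei_add (P : Finset ℕ) (F G : ℕ → ℝ) :
    Ei P (fun m => F m + G m) = Ei P F + Ei P G := by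
  simp only [Ei, ← sum_add_distrib, mul_add]

/-- the Laplace transform -/
theorem Ei_exp (P : Finset ℕ) (s : ℝ) : Ei P (fun m => Real.exp (s * (m - mu P))) =
    Real.exp (-(s * mu P)) * ∏ p ∈ P, (1 + (Real.exp s - 1) * (p : ℝ)⁻¹) := by
  have h1 : ∀ p ∈ P, 1 + (Real.exp s - 1) * (p : ℝ)⁻¹ =
      Real.exp s * (p : ℝ)⁻¹ + (1 - (p : ℝ)⁻¹) := fun p _ => by ring
  rw [prod_congr rfl h1, prod_add, mul_sum]
  refine sum_congr rfl fun A _ => ?_
  have h2 : Real.exp (s * ((#A : ℝ) - mu P)) =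
      Real.exp (-(s * mu P)) * Real.exp (#A * s) := by
    rw [← Real.exp_add]
    ring_nf
  change wt P A * Real.exp (s * ((#A : ℝ) - mu P)) = _
  rw [prod_mul_distrib, prod_const, ← Real.exp_nat_mul, h2, wt]
  ring

theorem Ei_exp_le {P : Finset ℕ} (hP : ∀ p ∈ P, p.Prime) {s : ℝ} (hs : |s| ≤ 1) :
    Ei P (fun m => Real.exp (s * (m - mu P))) ≤ Real.exp (s ^ 2 * mu P) := by
  have h2 : ∏ p ∈ P, (1 + (Real.exp s - 1) * (p : ℝ)⁻¹) ≤
      Real.exp ((Real.exp s - 1) * mu P) := by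
    rw [mu, mul_sum, Real.exp_sum]
    refine prod_le_prod (fun p hp => ?_) (fun p _ => ?_)
    · have h3 : (1 : ℝ) ≤ p := by exact_mod_cast (hP p hp).one_le
      have h4 : (p : ℝ)⁻¹ ≤ 1 := inv_le_one_of_one_le₀ h3
      have h5 : 0 ≤ Real.exp s * (p : ℝ)⁻¹ := by positivity
      nlinarith
    · rw [add_comm]
      exact Real.add_one_le_exp _
  have h0 : 0 ≤ mu P := sum_nonneg fun p _ => by positivity
  rw [Ei_exp]
  refine (mul_le_mul_of_nonneg_left h2 (Real.exp_pos _).le).trans ?_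
  rw [← Real.exp_add]
  refine Real.exp_le_exp.mpr ?_
  have h6 := (abs_le.mp (Real.abs_exp_sub_one_sub_id_le hs)).2
  nlinarith

theorem tailStmt : TailStmt := by
  intro P hP s hs hs1 k
  rw [← Ei_mul_const]
  have hf : (0 : ℝ) < (2 * k).factorial := by exact_mod_cast Nat.factorial_pos _
  have h1 : ∀ m : ℕ, ((m : ℝ) - mu P) ^ (2 * k) * s ^ (2 * k) ≤
      (Real.exp (s * (m - mu P)) + Real.exp (-s * (m - mu P))) * (2 * k).factorial := by
    intro m
    rw [← mul_pow, ← div_le_iff₀ hf, mul_comm _ s]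
    set y := s * ((m : ℝ) - mu P) with hy
    have h2 : -s * ((m : ℝ) - mu P) = -y := by rw [hy]; ring
    rw [h2]
    have h3 : y ^ (2 * k) / (2 * k).factorial ≤ Real.exp |y| := by
      have h4 := Real.pow_div_factorial_le_exp |y| (abs_nonneg y) (2 * k)
      rwa [pow_mul, sq_abs, ← pow_mul] at h4
    refine h3.trans ?_
    rcases le_total 0 y with h5 | h5
    · rw [abs_of_nonneg h5]
      linarith [Real.exp_pos (-y)]
    · rw [abs_of_nonpos h5]
      linarith [Real.exp_pos y]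
  refine (Ei_mono hP h1).trans ?_
  rw [Ei_mul_const, Ei_add]
  have h6 := Ei_exp_le hP (s := s) (by rw [abs_of_pos hs]; exact hs1)
  have h7 := Ei_exp_le hP (s := -s) (by rw [abs_neg, abs_of_pos hs]; exact hs1)
  rw [neg_sq] at h7
  nlinarith

end Fermat.Agent.Cor.EK
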