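import Fermat.Agent.Corollaries.EK.Defs
import Mathlib.Analysis.Calculus.MeanValue

/-!
# The theorem of Erdős and Kac: Taylor's formula for `exp (i x)`
-/

set_option autoImplicit false

open Finset Filter Topology

noncomputable section

namespace Fermat.Agent.Cor.EK

/-- the remainder of Taylor's formula for `exp (i x)` -/
def Rem (k : ℕ) (x : ℝ) : ℂ :=
  Complex.exp (x * Complex.I) - ∑ j ∈ range k, ((x : ℂ) * Complex.I) ^ j / j.factorial

theorem Rem_neg (k : ℕ) (x : ℝ) : Rem k (-x) = (starRingEnd ℂ) (Rem k x) := by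
  simp only [Rem, map_sub, map_sum, map_div₀, map_pow, map_mul, Complex.conj_ofReal,
    Complex.conj_I, map_natCast, ← Complex.exp_conj]
  push_cast
  congr 2
  · ring
  · ext j
    ring_nf

theorem hasDerivAt_Rem (k : ℕ) (x : ℝ) : HasDerivAt (Rem (k + 1)) (Complex.I * Rem k x) x := by
  have h1 : HasDerivAt (fun x : ℝ => (x : ℂ) * Complex.I) Complex.I x := by
    simpa using (Complex.ofRealCLM.hasDerivAt (x := x)).mul_const Complex.I
  have h2 : HasDerivAt (fun x : ℝ => ∑ j ∈ range (k + 1),
      ((x : ℂ) * Complex.I) ^ j / j.factorial)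
      (∑ j ∈ range (k + 1), (j * ((x : ℂ) * Complex.I) ^ (j - 1) * Complex.I) / j.factorial) x :=
    HasDerivAt.fun_sum fun j _ => (h1.pow j).div_const _
  have h3 := (h1.cexp).sub h2
  refine h3.congr_deriv ?_
  rw [sum_range_succ', Rem, mul_sub, mul_sum]
  simp only [Nat.cast_zero, zero_mul, zero_div, add_zero, Nat.add_sub_cancel]
  congr 1
  · ring
  · refine sum_congr rfl fun j _ => ?_
    rw [Nat.factorial_succ, Nat.cast_mul]
    have : ((j + 1 : ℕ) : ℂ) ≠ 0 := Nat.cast_ne_zero.mpr (by omega)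
    have : (j.factorial : ℂ) ≠ 0 := Nat.cast_ne_zero.mpr (Nat.factorial_ne_zero j)
    field_simp

theorem norm_Rem_le (k : ℕ) {x : ℝ} (hx : 0 ≤ x) : ‖Rem k x‖ ≤ x ^ k / k.factorial := by
  induction k generalizing x with
  | zero => simp [Rem, Complex.norm_exp_ofReal_mul_I]
  | succ k ih =>
    refine image_norm_le_of_norm_deriv_right_le_deriv_boundary (a := 0) (b := x)
      (f := Rem (k + 1)) (f' := fun t => Complex.I * Rem k t)
      (B := fun t => t ^ (k + 1) / (k + 1).factorial) (B' := fun t => t ^ k / k.factorial)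
      (fun t _ => (hasDerivAt_Rem k t).continuousAt.continuousWithinAt)
      (fun t _ => (hasDerivAt_Rem k t).hasDerivWithinAt) ?_ (fun t => ?_) (fun t ht => ?_)
      ⟨hx, le_rfl⟩
    · simp [Rem, sum_range_succ']
    · refine ((hasDerivAt_pow (k + 1) t).div_const _).congr_deriv ?_
      rw [Nat.factorial_succ, Nat.cast_mul, Nat.add_sub_cancel]
      have : ((k + 1 : ℕ) : ℝ) ≠ 0 := Nat.cast_ne_zero.mpr (by omega)
      have : (k.factorial : ℝ) ≠ 0 := Nat.cast_ne_zero.mpr (Nat.factorial_ne_zero k)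
      field_simp
    · rw [norm_mul, Complex.norm_I, one_mul]
      exact ih ht.1

theorem taylorStmt : TaylorStmt := by
  intro x k
  rcases le_total 0 x with hx | hx
  · rw [abs_of_nonneg hx]
    exact norm_Rem_le k hx
  · have h := norm_Rem_le k (neg_nonneg.mpr hx)
    rw [Rem_neg, RCLike.norm_conj] at h
    rw [abs_of_nonpos hx]
    exact h

end Fermat.Agent.Cor.EK
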