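import Fermat.Agent.Corollaries.EK.Levy
import Fermat.Agent.Corollaries.EK.Char
import Fermat.Agent.Corollaries.EK.Prod
import Fermat.Agent.Corollaries.EK.Tail
import Fermat.Agent.Corollaries.EK.Taylor
import Fermat.Agent.Corollaries.EK.Num
import Fermat.Agent.Corollaries.EK.Omega

/-!
# The theorem of Erdős and Kac

* `erdos_kac`: the number `ω(n)` of different prime factors of `n ≤ N` is normally distributed with
  mean and variance `log log N`;
* `erdos_kac_Omega`: the same for the number `Ω(n)` of prime factors with multiplicity.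
-/

set_option autoImplicit false

open Finset Filter Topology

namespace Fermat.Agent.Cor.EK

open ArithmeticFunction (cardDistinctFactors cardFactors)

theorem tendsto_log_log : Tendsto (fun N : ℕ => Real.log (Real.log (N : ℝ))) atTop atTop :=
  Real.tendsto_log_atTop.comp (Real.tendsto_log_atTop.comp tendsto_natCast_atTop_atTop)

/-- From the characteristic functions to the distribution functions, for every function `f`. -/
theorem ek_of_char {f : ℕ → ℝ} (h : ∀ t : ℝ, Tendsto (fun N : ℕ => (∑ n ∈ Icc 1 N,
    Complex.exp (t * ((f n - Real.log (Real.log N)) / √(Real.log (Real.log N)) : ℝ) *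
      Complex.I)) / N) atTop (𝓝 (Complex.exp (-t ^ 2 / 2)))) (a : ℝ) :
    Tendsto (fun N : ℕ => (#{n ∈ Icc 1 N | f n ≤
      Real.log (Real.log N) + a * √(Real.log (Real.log N))} : ℝ) / N) atTop
      (𝓝 ((√(2 * Real.pi))⁻¹ * ∫ x in Set.Iic a, Real.exp (-x ^ 2 / 2))) := by
  have h1 := tendsto_card_of_char (x := fun N n =>
    (f n - Real.log (Real.log N)) / √(Real.log (Real.log N))) h a
  refine h1.congr' ?_
  filter_upwards [tendsto_log_log.eventually_gt_atTop 0] with N hN
  congr 2
  refine congrArg Finset.card (Finset.filter_congr fun n _ => ?_)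
  rw [div_le_iff₀ (Real.sqrt_pos.mpr hN), sub_le_iff_le_add']

theorem charStmt : CharStmt := charStmt_of prodStmt momStmt tailStmt taylorStmt numStmt

/-- **The theorem of Erdős and Kac** (1940): for every real number `a` the proportion of the
`n ≤ N` with at most `log log N + a √(log log N)` different prime factors tends to the value of the
normal distribution function at `a`. -/
theorem erdos_kac (a : ℝ) : Tendsto (fun N : ℕ =>
    (#{n ∈ Icc 1 N | (cardDistinctFactors n : ℝ) ≤
      Real.log (Real.log N) + a * √(Real.log (Real.log N))} : ℝ) / N) atTop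
    (𝓝 ((√(2 * Real.pi))⁻¹ * ∫ x in Set.Iic a, Real.exp (-x ^ 2 / 2))) :=
  ek_of_char (f := fun n => (cardDistinctFactors n : ℝ)) charStmt a

/-- **The theorem of Erdős and Kac** for the number of prime factors counted with multiplicity. -/
theorem erdos_kac_Omega (a : ℝ) : Tendsto (fun N : ℕ =>
    (#{n ∈ Icc 1 N | (cardFactors n : ℝ) ≤
      Real.log (Real.log N) + a * √(Real.log (Real.log N))} : ℝ) / N) atTop
    (𝓝 ((√(2 * Real.pi))⁻¹ * ∫ x in Set.Iic a, Real.exp (-x ^ 2 / 2))) :=
  ek_of_char (f := fun n => (cardFactors n : ℝ)) (charOmega charStmt) a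

end Fermat.Agent.Cor.EK
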