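import Fermat.Agent.Corollaries.EK.Defs
import Fermat.Agent.Corollaries.HR.Divisors

/-!
# The distribution of the number of divisors

`2 ^ ω(n) ≤ d(n) ≤ 2 ^ Ω(n)`: the theorem of Erdős and Kac for `ω` and `Ω` gives the normal
distribution of `log d(n)`.
-/

set_option autoImplicit false

open Finset Filter Topology

noncomputable section

namespace Fermat.Agent.Cor.EK

/-- the theorem of Erdős and Kac for the number of the prime factors with multiplicities -/
def EKOmStmt : Prop := ∀ a : ℝ, Tendsto (fun N : ℕ =>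
  (#{n ∈ Icc 1 N | ((ArithmeticFunction.cardFactors n : ℕ) : ℝ) ≤
    Real.log (Real.log N) + a * √(Real.log (Real.log N))} : ℝ) / N) atTop
  (𝓝 ((√(2 * Real.pi))⁻¹ * ∫ x in Set.Iic a, Real.exp (-x ^ 2 / 2)))

/-- **the logarithm of the number of divisors is normally distributed**: the proportion of the
`n ≤ N` with `log d(n) ≤ log 2 (log log N + a √(log log N))` tends to
`(2π)^(-1/2) ∫_{x ≤ a} e^(-x²/2) dx`. -/
theorem card_divisors_of (h : EKStmt) (h' : EKOmStmt) (a : ℝ) : Tendsto (fun N : ℕ =>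
    (#{n ∈ Icc 1 N | Real.log (#n.divisors : ℝ) ≤ Real.log 2 *
      (Real.log (Real.log N) + a * √(Real.log (Real.log N)))} : ℝ) / N) atTop
    (𝓝 ((√(2 * Real.pi))⁻¹ * ∫ x in Set.Iic a, Real.exp (-x ^ 2 / 2))) := by
  have h2 : 0 < Real.log 2 := Real.log_pos (by norm_num)
  have key : ∀ (n : ℕ) (T : ℝ), Real.log (#n.divisors : ℝ) ≤ Real.log 2 * T ↔ HR.dv n ≤ T := by
    intro n T
    rw [HR.dv, div_le_iff₀ h2, mul_comm T]
  refine tendsto_of_tendsto_of_tendsto_of_le_of_le (h' a) (h a) (fun N => ?_) (fun N => ?_)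
  · refine div_le_div_of_nonneg_right ?_ (Nat.cast_nonneg N)
    refine Nat.cast_le.mpr (card_le_card fun n hn => ?_)
    obtain ⟨hn1, hn2⟩ := mem_filter.mp hn
    have hn0 : n ≠ 0 := by
      have := (mem_Icc.mp hn1).1
      omega
    exact mem_filter.mpr ⟨hn1, (key n _).mpr ((HR.dv_le_Om hn0).trans hn2)⟩
  · refine div_le_div_of_nonneg_right ?_ (Nat.cast_nonneg N)
    refine Nat.cast_le.mpr (card_le_card fun n hn => ?_)
    obtain ⟨hn1, hn2⟩ := mem_filter.mp hn
    have hn0 : n ≠ 0 := by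
      have := (mem_Icc.mp hn1).1
      omega
    exact mem_filter.mpr ⟨hn1, (HR.om_le_dv hn0).trans ((key n _).mp hn2)⟩

end Fermat.Agent.Cor.EK
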