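import Mathlib.Probability.Distributions.Gaussian.Real
import Mathlib.MeasureTheory.Measure.LevyConvergence
import Mathlib.MeasureTheory.Measure.Portmanteau

/-!
# Lévy's convergence theorem for finite sets of real numbers

If the characteristic functions of finite sets (with multiplicities) of real numbers converge to
`exp (-t ^ 2 / 2)`, then the numbers are normally distributed in the limit.
-/

set_option autoImplicit false

open Finset Filter Topology MeasureTheory ProbabilityTheory

noncomputable section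

namespace Fermat.Agent.Cor.EK

/-- the uniform distribution on the numbers `x 1, ..., x (N + 1)` -/
def unif (N : ℕ) (x : ℕ → ℝ) : Measure ℝ :=
  ((N + 1 : ℕ) : ENNReal)⁻¹ • ∑ n ∈ Icc 1 (N + 1), Measure.dirac (x n)

theorem unif_apply (N : ℕ) (x : ℕ → ℝ) {s : Set ℝ} (hs : MeasurableSet s)
    [DecidablePred fun n => x n ∈ s] :
    unif N x s = ((N + 1 : ℕ) : ENNReal)⁻¹ * #{n ∈ Icc 1 (N + 1) | x n ∈ s} := by
  unfold unif
  rw [Measure.smul_apply, Measure.finsetSum_apply, smul_eq_mul]
  congr 1
  rw [← Finset.sum_boole]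
  refine sum_congr rfl fun n _ => ?_
  rw [Measure.dirac_apply' _ hs, Set.indicator_apply]
  rfl

instance isProb_unif (N : ℕ) (x : ℕ → ℝ) : IsProbabilityMeasure (unif N x) := by
  classical
  refine ⟨?_⟩
  rw [unif_apply N x MeasurableSet.univ, Finset.filter_true_of_mem (fun n _ => Set.mem_univ _),
    Nat.card_Icc, Nat.add_sub_cancel]
  exact ENNReal.inv_mul_cancel (by exact_mod_cast (Nat.succ_ne_zero N)) (ENNReal.natCast_ne_top _)

theorem charFun_unif (N : ℕ) (x : ℕ → ℝ) (t : ℝ) : charFun (unif N x) t =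
    (∑ n ∈ Icc 1 (N + 1), Complex.exp (t * (x n : ℝ) * Complex.I)) / ((N + 1 : ℕ) : ℂ) := by
  rw [charFun_apply_real]
  unfold unif
  rw [integral_smul_measure, integral_finsetSum_measure]
  · rw [ENNReal.toReal_inv, ENNReal.toReal_natCast, Complex.real_smul, div_eq_inv_mul]
    congr 1
    · push_cast
      rfl
    · refine sum_congr rfl fun n _ => ?_
      rw [integral_dirac]
  · intro n _
    exact integrable_dirac (by simp)

theorem gaussianReal_Iic (a : ℝ) : (gaussianReal 0 1 (Set.Iic a)).toReal =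
    (√(2 * Real.pi))⁻¹ * ∫ x in Set.Iic a, Real.exp (-x ^ 2 / 2) := by
  rw [gaussianReal_apply_eq_integral 0 one_ne_zero, ENNReal.toReal_ofReal
    (integral_nonneg fun x => gaussianPDFReal_nonneg 0 1 x), ← integral_const_mul]
  congr 1
  funext x
  unfold gaussianPDFReal
  simp

/-- **Lévy's convergence theorem** for finite sets. -/
theorem tendsto_card_of_char {x : ℕ → ℕ → ℝ} (h : ∀ t : ℝ, Tendsto (fun N : ℕ =>
    (∑ n ∈ Icc 1 N, Complex.exp (t * (x N n : ℝ) * Complex.I)) / N) atTop
      (𝓝 (Complex.exp (-t ^ 2 / 2)))) (a : ℝ) :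
    Tendsto (fun N : ℕ => (#{n ∈ Icc 1 N | x N n ≤ a} : ℝ) / N) atTop
      (𝓝 ((√(2 * Real.pi))⁻¹ * ∫ y in Set.Iic a, Real.exp (-y ^ 2 / 2))) := by
  classical
  set μ : ℕ → ProbabilityMeasure ℝ := fun N => ⟨unif N (x (N + 1)), isProb_unif _ _⟩ with hμ
  set γ : ProbabilityMeasure ℝ := ⟨gaussianReal 0 1, inferInstance⟩ with hγ
  have h1 : Tendsto μ atTop (𝓝 γ) := by
    rw [ProbabilityMeasure.tendsto_iff_tendsto_charFun]
    intro t
    have e1 : charFun ((γ : ProbabilityMeasure ℝ) : Measure ℝ) t = Complex.exp (-t ^ 2 / 2) := by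
      change charFun (gaussianReal 0 1) t = _
      rw [charFun_gaussianReal]
      congr 1
      push_cast
      ring
    rw [e1]
    have h2 := (tendsto_add_atTop_iff_nat 1).mpr (h t)
    refine h2.congr fun N => ?_
    exact (charFun_unif N (x (N + 1)) t).symm
  have h2 := ProbabilityMeasure.tendsto_measure_of_null_frontier_of_tendsto' h1
    (E := Set.Iic a) (by
      change gaussianReal 0 1 (frontier (Set.Iic a)) = 0
      rw [frontier_Iic]
      have := nullSingletonClass_gaussianReal (μ := 0) (v := 1) one_ne_zero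
      exact measure_singleton a)
  have h3 := (ENNReal.tendsto_toReal (measure_ne_top _ _)).comp h2
  rw [← gaussianReal_Iic, ← tendsto_add_atTop_iff_nat 1]
  refine h3.congr fun N => ?_
  change (unif N (x (N + 1)) (Set.Iic a)).toReal = _
  rw [unif_apply N _ measurableSet_Iic, ENNReal.toReal_mul, ENNReal.toReal_inv,
    ENNReal.toReal_natCast, ENNReal.toReal_natCast, div_eq_inv_mul]
  simp only [Set.mem_Iic]

end Fermat.Agent.Cor.EK
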