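import Fermat.Agent.Corollaries.EK.Defs
import Mathlib.Data.Nat.Prime.Basic
import Mathlib.NumberTheory.Primorial

/-!
# The theorem of Erdős and Kac: moments

The moments of the number of elements of `P` which divide `n`, `n ≤ N`, are close to those of the
independent model.
-/

set_option autoImplicit false

open Finset

namespace Fermat.Agent.Cor.EK

/-- the image of a tuple -/
def im {j : ℕ} (f : Fin j → ℕ) : Finset ℕ := univ.image f

theorem pow_card_filter (P : Finset ℕ) (q : ℕ → Prop) [DecidablePred q] (j : ℕ) :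
    (#{p ∈ P | q p} : ℝ) ^ j = ∑ f ∈ Fintype.piFinset (fun _ : Fin j => P),
      if ∀ p ∈ im f, q p then (1 : ℝ) else 0 := by
  have h1 : (#{p ∈ P | q p} : ℝ) = ∑ p ∈ P, if q p then (1 : ℝ) else 0 := by
    rw [Finset.sum_boole]
  have h2 : (#{p ∈ P | q p} : ℝ) ^ j = ∏ _i : Fin j, ∑ p ∈ P, if q p then (1 : ℝ) else 0 := by
    rw [Finset.prod_const, card_univ, Fintype.card_fin, h1]
  rw [h2, Finset.prod_univ_sum]
  refine sum_congr rfl fun f _ => ?_
  split_ifs with h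
  · refine prod_eq_one fun i _ => if_pos (h _ (mem_image_of_mem f (mem_univ i)))
  · push Not at h
    obtain ⟨p, hp, hq⟩ := h
    obtain ⟨i, -, rfl⟩ := mem_image.mp hp
    exact prod_eq_zero (mem_univ i) (if_neg hq)

theorem sum_wt_subset {P D : Finset ℕ} (hD : D ⊆ P) :
    ∑ A ∈ P.powerset, wt P A * (if ∀ p ∈ D, p ∈ A then (1 : ℝ) else 0) = ∏ p ∈ D, (p : ℝ)⁻¹ := by
  have h := Finset.prod_add (fun p : ℕ => (p : ℝ)⁻¹)
    (fun p : ℕ => (1 - (p : ℝ)⁻¹) * if p ∈ D then 0 else 1) P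
  have h1 : ∏ p ∈ P, ((p : ℝ)⁻¹ + (1 - (p : ℝ)⁻¹) * if p ∈ D then 0 else 1) =
      ∏ p ∈ D, (p : ℝ)⁻¹ := by
    rw [← Finset.prod_subset hD]
    · refine prod_congr rfl fun p hp => ?_
      rw [if_pos hp, mul_zero, add_zero]
    · intro p _ hp
      rw [if_neg hp, mul_one, add_sub_cancel]
  rw [h1] at h
  rw [h]
  refine sum_congr rfl fun A hA => ?_
  unfold wt
  rw [mul_assoc, Finset.prod_mul_distrib]
  congr 2
  split_ifs with hA'
  · refine (prod_eq_one fun p hp => if_neg fun hpD => ?_).symm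
    exact (mem_sdiff.mp hp).2 (hA' p hpD)
  · push Not at hA'
    obtain ⟨p, hp, hpA⟩ := hA'
    exact (prod_eq_zero (f := fun p => if p ∈ D then (0 : ℝ) else 1)
      (mem_sdiff.mpr ⟨hD hp, hpA⟩) (if_pos hp)).symm

theorem abs_card_sub {D : Finset ℕ} (hD : ∀ p ∈ D, p.Prime) {N : ℕ} (hN : 1 ≤ N) :
    |(∑ n ∈ Icc 1 N, if ∀ p ∈ D, p ∣ n then (1 : ℝ) else 0) / N - ∏ p ∈ D, (p : ℝ)⁻¹| ≤
      1 / N := by
  have hN0 : (0 : ℝ) < N := by exact_mod_cast hN
  set d : ℕ := ∏ p ∈ D, p with hd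
  have hd0 : 0 < d := prod_pos fun p hp => (hD p hp).pos
  have h1 : ∀ n, (∀ p ∈ D, p ∣ n) ↔ d ∣ n := by
    intro n
    constructor
    · intro h
      exact Finset.prod_primes_dvd n (fun p hp => (hD p hp).prime) h
    · intro h p hp
      exact (dvd_prod_of_mem _ hp).trans h
  have h2 : (∑ n ∈ Icc 1 N, if ∀ p ∈ D, p ∣ n then (1 : ℝ) else 0) = ((N / d : ℕ) : ℝ) := by
    simp only [h1]
    rw [Finset.sum_boole, ← Nat.Ioc_filter_dvd_card_eq_div N d]
    rfl
  have h3 : ∏ p ∈ D, (p : ℝ)⁻¹ = (d : ℝ)⁻¹ := by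
    rw [Finset.prod_inv_distrib, hd, Nat.cast_prod]
  rw [h2, h3]
  have hd0' : (0 : ℝ) < d := by exact_mod_cast hd0
  have h4 : ((N / d : ℕ) : ℝ) ≤ N / d := Nat.cast_div_le
  have h5 : (N : ℝ) / d < ((N / d : ℕ) : ℝ) + 1 := by
    rw [div_lt_iff₀ hd0']
    have := Nat.lt_div_mul_add (a := N) hd0
    have h6 : N < (N / d + 1) * d := by
      rw [add_mul, one_mul]
      exact this
    exact_mod_cast h6
  have h6 : ((N / d : ℕ) : ℝ) / N - (d : ℝ)⁻¹ = (((N / d : ℕ) : ℝ) - N / d) / N := by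
    field_simp
  rw [h6, abs_div, abs_of_pos hN0]
  refine div_le_div_of_nonneg_right ?_ hN0.le
  rw [abs_le]
  constructor <;> linarith

theorem mu_nonneg (P : Finset ℕ) : 0 ≤ mu P := sum_nonneg fun _ _ => by positivity

theorem mu_le {P : Finset ℕ} (hP : ∀ p ∈ P, p.Prime) : mu P ≤ #P := by
  unfold mu
  have h : ∀ p ∈ P, (p : ℝ)⁻¹ ≤ 1 := fun p hp =>
    inv_le_one_of_one_le₀ (by exact_mod_cast (hP p hp).one_lt.le)
  simpa using sum_le_card_nsmul P _ 1 h

/-- (K2) -/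
theorem momStmt : MomStmt := by
  intro P hP N hN k
  have hN0 : (0 : ℝ) < N := by exact_mod_cast hN
  -- the powers
  have h1 : ∀ j : ℕ, |(∑ n ∈ Icc 1 N, (cn P n : ℝ) ^ j) / N - Ei P (fun m => (m : ℝ) ^ j)| ≤
      (#P : ℝ) ^ j / N := by
    intro j
    have e1 : (∑ n ∈ Icc 1 N, (cn P n : ℝ) ^ j) / N =
        ∑ f ∈ Fintype.piFinset (fun _ : Fin j => P),
          (∑ n ∈ Icc 1 N, if ∀ p ∈ im f, p ∣ n then (1 : ℝ) else 0) / N := by
      rw [← Finset.sum_div, Finset.sum_comm]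
      congr 1
      exact sum_congr rfl fun n _ => pow_card_filter P (fun p => p ∣ n) j
    have e2 : Ei P (fun m => (m : ℝ) ^ j) =
        ∑ f ∈ Fintype.piFinset (fun _ : Fin j => P), ∏ p ∈ im f, (p : ℝ)⁻¹ := by
      have e3 : Ei P (fun m => (m : ℝ) ^ j) = ∑ A ∈ P.powerset,
          ∑ f ∈ Fintype.piFinset (fun _ : Fin j => P),
            wt P A * (if ∀ p ∈ im f, p ∈ A then (1 : ℝ) else 0) := by
        unfold Ei
        refine sum_congr rfl fun A hA => ?_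
        rw [← Finset.mul_sum, ← pow_card_filter P (fun p => p ∈ A) j]
        congr 3
        rw [Finset.filter_mem_eq_inter, inter_eq_right.mpr (mem_powerset.mp hA)]
      rw [e3, Finset.sum_comm]
      refine sum_congr rfl fun f hf => sum_wt_subset ?_
      intro p hp
      obtain ⟨i, -, rfl⟩ := mem_image.mp hp
      exact Fintype.mem_piFinset.mp hf i
    rw [e1, e2, ← Finset.sum_sub_distrib]
    refine (abs_sum_le_sum_abs _ _).trans ?_
    have e4 : ∀ f ∈ Fintype.piFinset (fun _ : Fin j => P),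
        |(∑ n ∈ Icc 1 N, if ∀ p ∈ im f, p ∣ n then (1 : ℝ) else 0) / N -
          ∏ p ∈ im f, (p : ℝ)⁻¹| ≤ 1 / N := by
      intro f hf
      refine abs_card_sub (fun p hp => ?_) hN
      obtain ⟨i, -, rfl⟩ := mem_image.mp hp
      exact hP _ (Fintype.mem_piFinset.mp hf i)
    refine (sum_le_card_nsmul _ _ _ e4).trans (le_of_eq ?_)
    rw [Fintype.card_piFinset, prod_const, card_univ, Fintype.card_fin, nsmul_eq_mul]
    push_cast
    ring
  -- the binomial theorem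
  have e5 : (∑ n ∈ Icc 1 N, ((cn P n : ℝ) - mu P) ^ k) / N - Ei P (fun m => ((m : ℝ) - mu P) ^ k) =
      ∑ j ∈ range (k + 1), ((∑ n ∈ Icc 1 N, (cn P n : ℝ) ^ j) / N - Ei P (fun m => (m : ℝ) ^ j)) *
        ((-mu P) ^ (k - j) * (k.choose j : ℝ)) := by
    have e6 : ∀ x : ℝ, (x - mu P) ^ k =
        ∑ j ∈ range (k + 1), x ^ j * ((-mu P) ^ (k - j) * (k.choose j : ℝ)) := by
      intro x
      rw [sub_eq_add_neg, add_pow]
      exact sum_congr rfl fun j _ => mul_assoc _ _ _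
    have e7 : ∀ j, ((∑ n ∈ Icc 1 N, (cn P n : ℝ) ^ j) / N - Ei P (fun m => (m : ℝ) ^ j)) *
        ((-mu P) ^ (k - j) * (k.choose j : ℝ)) =
        (∑ n ∈ Icc 1 N, (cn P n : ℝ) ^ j * ((-mu P) ^ (k - j) * (k.choose j : ℝ))) / N -
        Ei P (fun m => (m : ℝ) ^ j * ((-mu P) ^ (k - j) * (k.choose j : ℝ))) := by
      intro j
      rw [sub_mul, div_mul_eq_mul_div, Finset.sum_mul]
      congr 1
      unfold Ei
      rw [Finset.sum_mul]
      exact sum_congr rfl fun A _ => mul_assoc _ _ _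
    rw [sum_congr rfl fun j _ => e7 j, Finset.sum_sub_distrib, ← Finset.sum_div, Finset.sum_comm]
    congr 1
    · congr 1
      exact sum_congr rfl fun n _ => e6 _
    · unfold Ei
      rw [Finset.sum_comm]
      refine sum_congr rfl fun A _ => ?_
      rw [← Finset.mul_sum, ← e6]
  rw [e5]
  refine (abs_sum_le_sum_abs _ _).trans ?_
  have h2 : ∀ j ∈ range (k + 1), |((∑ n ∈ Icc 1 N, (cn P n : ℝ) ^ j) / N -
      Ei P (fun m => (m : ℝ) ^ j)) * ((-mu P) ^ (k - j) * (k.choose j : ℝ))| ≤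
      (#P : ℝ) ^ j * (mu P) ^ (k - j) * (k.choose j : ℝ) / N := by
    intro j _
    rw [abs_mul, abs_mul, abs_pow, abs_neg, abs_of_nonneg (mu_nonneg P), Nat.abs_cast]
    calc _ ≤ (#P : ℝ) ^ j / N * ((mu P) ^ (k - j) * (k.choose j : ℝ)) :=
          mul_le_mul_of_nonneg_right (h1 j)
            (mul_nonneg (pow_nonneg (mu_nonneg P) _) (Nat.cast_nonneg _))
      _ = _ := by ring
  refine (sum_le_sum h2).trans ?_
  rw [← Finset.sum_div, ← add_pow]
  refine div_le_div_of_nonneg_right (pow_le_pow_left₀ ?_ ?_ k) hN0.le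
  · exact add_nonneg (Nat.cast_nonneg _) (mu_nonneg P)
  · linarith [mu_le hP]

end Fermat.Agent.Cor.EK
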